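import Mathlib
import Fermat.Agent.LT.T6.Spec

/-!
# Row LT, tower T6, sub-leaf T6.07 (helper502): basic algebra of the twisted norm

OFF-MAIN.  Pure algebra (Mathlib only + `T6/Spec.lean`).

* `twN_conj502`, `map_twN502`: the twisted norm under `s`-conjugation and under `s`.
* `exists_eq_smul_add502`: the centraliser of a regular `2 × 2` matrix `γ` over ANY commutative
  ring is `R + R γ`; `smul_add_eq_zero502`: `1, γ` are linearly independent.
* `cayley502`: `γ² - tr γ · γ + det γ = 0`.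
-/

set_option autoImplicit false

open scoped Matrix

noncomputable section

namespace Fermat.Agent.LT.T6.H502

open Fermat.Agent.LT.T6

section Group

variable {Γ : Type} [Group Γ] (s : Γ →* Γ)

theorem twN_zero502 (δ : Γ) : twN s 0 δ = 1 := rfl

theorem twN_succ502 (n : ℕ) (δ : Γ) : twN s (n + 1) δ = δ * s (twN s n δ) := rfl

/-- The twisted norm of an `s`-conjugate. -/
theorem twN_conj502 (x δ : Γ) (n : ℕ) :
    twN s n (x⁻¹ * δ * s x) = x⁻¹ * twN s n δ * (s^[n] x) := by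
  induction n with
  | zero => simp [twN_zero502]
  | succ n ih =>
    rw [twN_succ502, twN_succ502, ih, Function.iterate_succ_apply', map_mul, map_mul, map_inv]
    group

/-- `s (N δ) = δ⁻¹ (N δ) sⁿ(δ)`. -/
theorem map_twN502 (δ : Γ) (n : ℕ) :
    s (twN s n δ) = δ⁻¹ * twN s n δ * (s^[n] δ) := by
  induction n with
  | zero => simp [twN_zero502]
  | succ n ih =>
    rw [twN_succ502, Function.iterate_succ_apply', map_mul, ih, map_mul, map_mul, map_inv, ih]
    group

end Group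

section Mat

variable {R : Type} [CommRing R]

/-- Cayley--Hamilton for `2 × 2` matrices, written out. -/
theorem cayley502 (γ : Matrix (Fin 2) (Fin 2) R) :
    γ * γ - γ.trace • γ + γ.det • (1 : Matrix (Fin 2) (Fin 2) R) = 0 := by
  ext i j
  fin_cases i <;> fin_cases j <;>
    simp [Matrix.mul_apply, Fin.sum_univ_two, Matrix.trace_fin_two, Matrix.det_fin_two] <;> ring

/-- The discriminant in coordinates. -/
theorem disc_eq502 (γ : Matrix (Fin 2) (Fin 2) R) :
    γ.trace ^ 2 - 4 * γ.det = (γ 0 0 - γ 1 1) ^ 2 + 4 * γ 0 1 * γ 1 0 := by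
  rw [Matrix.trace_fin_two, Matrix.det_fin_two]; ring

/-- `1` and a regular `γ` are linearly independent. -/
theorem smul_add_eq_zero502 (γ : Matrix (Fin 2) (Fin 2) R)
    (hγ : IsUnit (γ.trace ^ 2 - 4 * γ.det)) (a b : R)
    (h : a • (1 : Matrix (Fin 2) (Fin 2) R) + b • γ = 0) : a = 0 ∧ b = 0 := by
  obtain ⟨u, hu⟩ := hγ.exists_left_inv
  rw [disc_eq502] at hu
  have h00 := congrFun (congrFun h 0) 0
  have h01 := congrFun (congrFun h 0) 1
  have h10 := congrFun (congrFun h 1) 0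
  have h11 := congrFun (congrFun h 1) 1
  simp at h00 h01 h10 h11
  have hb : b = 0 := by
    have : b = b * (u * ((γ 0 0 - γ 1 1) ^ 2 + 4 * γ 0 1 * γ 1 0)) := by rw [hu, mul_one]
    rw [this]
    linear_combination (u * (γ 0 0 - γ 1 1)) * (h00 - h11) + (4 * u * γ 1 0) * h01
  refine ⟨?_, hb⟩
  rw [hb] at h00
  simpa using h00

/-- The centraliser of a regular `2 × 2` matrix over a commutative ring is `R + R γ`. -/
theorem exists_eq_smul_add502 (γ X : Matrix (Fin 2) (Fin 2) R)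
    (hγ : IsUnit (γ.trace ^ 2 - 4 * γ.det)) (hX : X * γ = γ * X) :
    ∃ a b : R, X = a • (1 : Matrix (Fin 2) (Fin 2) R) + b • γ := by
  obtain ⟨u, hu⟩ := hγ.exists_left_inv
  rw [disc_eq502] at hu
  have h00 := congrFun (congrFun hX 0) 0
  have h01 := congrFun (congrFun hX 0) 1
  have h10 := congrFun (congrFun hX 1) 0
  simp [Matrix.mul_apply, Fin.sum_univ_two] at h00 h01 h10
  -- β = r₁ (x00 - x11) + r₂ x01, r₁ = u (g00 - g11), r₂ = 4 u g10
  set β : R := u * (γ 0 0 - γ 1 1) * (X 0 0 - X 1 1) + 4 * u * γ 1 0 * X 0 1 with hβ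
  have e01 : β * γ 0 1 = X 0 1 := by
    have : X 0 1 = X 0 1 * (u * ((γ 0 0 - γ 1 1) ^ 2 + 4 * γ 0 1 * γ 1 0)) := by
      rw [hu, mul_one]
    rw [this, hβ]
    linear_combination (u * (γ 0 0 - γ 1 1)) * h01
  have e10 : β * γ 1 0 = X 1 0 := by
    have : X 1 0 = X 1 0 * (u * ((γ 0 0 - γ 1 1) ^ 2 + 4 * γ 0 1 * γ 1 0)) := by
      rw [hu, mul_one]
    rw [this, hβ]
    linear_combination (-(u * (γ 0 0 - γ 1 1))) * h10 + (4 * u * γ 1 0) * h00
  have ed : β * (γ 0 0 - γ 1 1) = X 0 0 - X 1 1 := by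
    have : X 0 0 - X 1 1 = (X 0 0 - X 1 1) * (u * ((γ 0 0 - γ 1 1) ^ 2 + 4 * γ 0 1 * γ 1 0)) := by
      rw [hu, mul_one]
    rw [this, hβ]
    linear_combination (-(4 * u * γ 1 0)) * h01
  refine ⟨X 0 0 - β * γ 0 0, β, ?_⟩
  ext i j
  fin_cases i <;> fin_cases j <;> simp
  · exact e01.symm
  · exact e10.symm
  · linear_combination ed

end Mat

end Fermat.Agent.LT.T6.H502

end
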