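import Mathlib
import Fermat.Agent.LT.T6.Spec
import Fermat.Agent.LT.T6.H502.TwBasic

/-!
# Row LT, tower T6, sub-leaf T6.07 (helper502): the abstract core

OFF-MAIN.  Pure algebra (Mathlib only + `T6/Spec.lean`).

`R` a commutative ring with an automorphism `s`, `γ ∈ GL₂(R)` regular with `s γ = γ`.
The commutative algebra `R[γ] = R[X] / (X² - tr γ X + det γ)` carries the automorphism "`s` on the
coefficients"; the twisted norm of `p(γ)` is `(p · p^s ⋯ p^{s^{n-1}})(γ)` (`coe_twNorm_aeval502`).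

* `exists_prod_eq502` (LOCAL): if `γ` is conjugate to a twisted norm, then in every commutative
  ring `B` with a compatible triple `(Ψ : R → B, Θ, T)` the element `Θ` is a `T`-norm.
* `exists_twNorm_eq502` (GLOBAL): conversely, if `Θ` is a `T`-norm of a unit in a quotient `B` of
  `R[X]` through which evaluation at `γ` factors, then `γ` is a twisted norm.
-/

set_option autoImplicit false

open scoped Matrix
open Polynomial

noncomputable section

namespace Fermat.Agent.LT.T6.H502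

open Fermat.Agent.LT.T6

variable {R : Type} [CommRing R]

/-- The characteristic polynomial of a `2 × 2` matrix, written out. -/
def charP502 (γ : Matrix (Fin 2) (Fin 2) R) : R[X] :=
  X ^ 2 + (C (-γ.trace) * X + C γ.det)

theorem charP_monic502 [Nontrivial R] (γ : Matrix (Fin 2) (Fin 2) R) : (charP502 γ).Monic := by
  apply monic_X_pow_add
  refine lt_of_le_of_lt (degree_add_le _ _) ?_
  refine max_lt ?_ ?_
  · refine lt_of_le_of_lt (degree_C_mul_X_le _) ?_
    norm_num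
  · refine lt_of_le_of_lt degree_C_le ?_
    norm_num

theorem charP_degree502 [Nontrivial R] (γ : Matrix (Fin 2) (Fin 2) R) :
    (charP502 γ).degree = 2 := by
  unfold charP502
  rw [degree_add_eq_left_of_degree_lt]
  · simp
  · rw [degree_X_pow]
    refine lt_of_le_of_lt (degree_add_le _ _) ?_
    refine max_lt ?_ ?_
    · refine lt_of_le_of_lt (degree_C_mul_X_le _) ?_
      norm_num
    · refine lt_of_le_of_lt degree_C_le ?_
      norm_num

theorem aeval_charP502 (γ : Matrix (Fin 2) (Fin 2) R) : aeval γ (charP502 γ) = 0 := by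
  have h := cayley502 γ
  simp only [charP502, map_add, map_mul, map_pow, aeval_X, aeval_C, map_neg,
    Algebra.algebraMap_eq_smul_one]
  rw [← h]
  simp only [pow_two, smul_mul_assoc, one_mul, neg_mul]
  abel

/-- Evaluation of the characteristic polynomial in a commutative ring. -/
theorem eval₂_charP502 {B : Type} [CommRing B] (γ : Matrix (Fin 2) (Fin 2) R) (Ψ : R →+* B)
    (Θ : B) : eval₂ Ψ Θ (charP502 γ) = Θ ^ 2 - Ψ γ.trace * Θ + Ψ γ.det := by
  simp [charP502, eval₂_add, eval₂_mul, eval₂_pow]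
  ring

/-- A polynomial killing a regular `γ` is divisible by the characteristic polynomial. -/
theorem charP_dvd502 (γ : Matrix (Fin 2) (Fin 2) R)
    (hγ : IsUnit (γ.trace ^ 2 - 4 * γ.det)) (q : R[X]) (hq : aeval γ q = 0) :
    charP502 γ ∣ q := by
  rcases subsingleton_or_nontrivial R with h | h
  · exact ⟨0, Subsingleton.elim _ _⟩
  have hm := charP_monic502 γ
  rw [← modByMonic_eq_zero_iff_dvd hm]
  set r := q %ₘ charP502 γ with hr
  have hdeg : r.degree ≤ 1 := by
    have h1 : r.degree < 2 := by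
      have := degree_modByMonic_lt q hm
      rwa [charP_degree502] at this
    rw [Polynomial.degree_le_iff_coeff_zero]
    intro m hm
    refine Polynomial.coeff_eq_zero_of_degree_lt (lt_of_lt_of_le h1 ?_)
    have hm' : 1 < m := by exact_mod_cast hm
    exact_mod_cast hm'
  have hr0 : aeval γ r = 0 := by
    have h1 := modByMonic_add_div q (charP502 γ)
    have h2 : aeval γ (r + charP502 γ * (q /ₘ charP502 γ)) = 0 := by rw [h1, hq]
    rw [map_add, map_mul, aeval_charP502, zero_mul, add_zero] at h2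
    exact h2
  rw [eq_X_add_C_of_degree_le_one hdeg] at hr0 ⊢
  simp only [map_add, map_mul, aeval_X, aeval_C, Algebra.algebraMap_eq_smul_one,
    smul_mul_assoc, one_mul] at hr0
  obtain ⟨h0, h1⟩ := smul_add_eq_zero502 γ hγ (r.coeff 0) (r.coeff 1) (by rw [add_comm]; exact hr0)
  rw [h0, h1]
  simp

/-! ## The twisted product of a polynomial -/

/-- `p · p^s ⋯ p^{s^{n-1}}`. -/
def twPoly502 (s : R ≃+* R) (n : ℕ) (p : R[X]) : R[X] :=
  ∏ i ∈ Finset.range n, p.map ((s ^ i : R ≃+* R) : R →+* R)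

theorem twPoly_succ502 (s : R ≃+* R) (n : ℕ) (p : R[X]) :
    twPoly502 s (n + 1) p = p * (twPoly502 s n p).map (s : R →+* R) := by
  unfold twPoly502
  rw [Finset.prod_range_succ', Polynomial.map_prod, mul_comm]
  congr 1
  · ext n
    simp [Polynomial.coeff_map]
  · refine Finset.prod_congr rfl fun i _ => ?_
    rw [Polynomial.map_map]
    congr 1
    ext x
    simp [pow_succ']

/-- `s` applied entrywise to `q(γ)`. -/
theorem map_aeval502 (s : R →+* R) (γ : Matrix (Fin 2) (Fin 2) R) (q : R[X]) :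
    (aeval γ q).map s = aeval (γ.map s) (q.map s) := by
  induction q using Polynomial.induction_on' with
  | add p q hp hq =>
    rw [map_add, Polynomial.map_add, map_add, Matrix.map_add _ (map_add s), hp, hq]
  | monomial n a =>
    rw [Polynomial.map_monomial, aeval_monomial, aeval_monomial]
    have h1 : (algebraMap R (Matrix (Fin 2) (Fin 2) R) a * γ ^ n).map s
        = s.mapMatrix (algebraMap R (Matrix (Fin 2) (Fin 2) R) a * γ ^ n) := rfl
    rw [h1, map_mul, map_pow]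
    congr 1
    ext i j
    simp [Matrix.algebraMap_matrix_apply]
    split_ifs <;> simp

theorem coe_glAut502 (s : R ≃+* R) (g : GL (Fin 2) R) :
    ((glAut s g : GL (Fin 2) R) : Matrix (Fin 2) (Fin 2) R)
      = (g : Matrix (Fin 2) (Fin 2) R).map (s : R →+* R) := by
  ext i j
  simp [glAut, Matrix.GeneralLinearGroup.map_apply]

/-- **The twisted norm of `p(γ)`.** -/
theorem coe_twNorm_aeval502 (s : R ≃+* R) (γ : GL (Fin 2) R) (hγs : glAut s γ = γ)
    (δ : GL (Fin 2) R) (p : R[X])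
    (hδ : (δ : Matrix (Fin 2) (Fin 2) R) = aeval (γ : Matrix (Fin 2) (Fin 2) R) p) (n : ℕ) :
    ((twNorm s n δ : GL (Fin 2) R) : Matrix (Fin 2) (Fin 2) R)
      = aeval (γ : Matrix (Fin 2) (Fin 2) R) (twPoly502 s n p) := by
  have hγ' : (γ : Matrix (Fin 2) (Fin 2) R).map (s : R →+* R) = γ := by
    rw [← coe_glAut502, hγs]
  induction n with
  | zero => simp [twNorm, twN, twPoly502]
  | succ n ih =>
    have h1 : twNorm s (n + 1) δ = δ * glAut s (twNorm s n δ) := rfl
    rw [h1, Units.val_mul, coe_glAut502, ih, map_aeval502, hγ', hδ, twPoly_succ502, map_mul]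

/-- Iterating `glAut s`. -/
theorem glAut_iterate502 (s : R ≃+* R) (n : ℕ) (g : GL (Fin 2) R) :
    (glAut s)^[n] g = glAut (s ^ n) g := by
  induction n with
  | zero =>
    apply Units.ext
    ext i j
    simp [glAut, Matrix.GeneralLinearGroup.map_apply]
  | succ n ih =>
    rw [Function.iterate_succ_apply', ih]
    apply Units.ext
    ext i j
    simp [glAut, Matrix.GeneralLinearGroup.map_apply, pow_succ']

theorem glAut_one502 (g : GL (Fin 2) R) : glAut (1 : R ≃+* R) g = g := by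
  apply Units.ext
  ext i j
  simp [glAut, Matrix.GeneralLinearGroup.map_apply]

/-! ## The two abstract statements -/

/-- If `γ` is conjugate to a twisted norm, it IS a twisted norm of an element `p(γ)`. -/
theorem exists_poly_of_isConj502 (s : R ≃+* R) (l : ℕ) (hs : s ^ l = 1) (γ : GL (Fin 2) R)
    (hγs : glAut s γ = γ) (hreg : IsReg γ) (δ : GL (Fin 2) R)
    (hconj : IsConj (twNorm s l δ) γ) :
    ∃ p : R[X], aeval (γ : Matrix (Fin 2) (Fin 2) R) (twPoly502 s l p)
      = (γ : Matrix (Fin 2) (Fin 2) R) := by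
  obtain ⟨c, hc⟩ := isConj_iff.mp hconj
  -- δ' = c δ s(c)⁻¹ has norm γ
  set δ' : GL (Fin 2) R := (c⁻¹)⁻¹ * δ * glAut s c⁻¹ with hδ'
  have hN : twNorm s l δ' = γ := by
    have h1 := twN_conj502 (glAut s) c⁻¹ δ l
    have h2 : (glAut s)^[l] c⁻¹ = c⁻¹ := by rw [glAut_iterate502, hs, glAut_one502]
    rw [h2, inv_inv] at h1
    show twN (glAut s) l δ' = γ
    rw [hδ', inv_inv, h1]
    exact hc
  -- δ' commutes with γ
  have hcomm : δ' * γ = γ * δ' := by
    have h1 := map_twN502 (glAut s) δ' l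
    have h2 : (glAut s)^[l] δ' = δ' := by rw [glAut_iterate502, hs, glAut_one502]
    have h3 : twN (glAut s) l δ' = γ := hN
    rw [h2, h3, hγs] at h1
    calc δ' * γ = δ' * (δ'⁻¹ * γ * δ') := by rw [← h1]
      _ = γ * δ' := by group
  have hcomm' : (δ' : Matrix (Fin 2) (Fin 2) R) * (γ : Matrix (Fin 2) (Fin 2) R)
      = (γ : Matrix (Fin 2) (Fin 2) R) * (δ' : Matrix (Fin 2) (Fin 2) R) := by
    rw [← Units.val_mul, hcomm, Units.val_mul]
  obtain ⟨a, b, hab⟩ := exists_eq_smul_add502 _ _ hreg hcomm'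
  refine ⟨C a + C b * X, ?_⟩
  rw [← coe_twNorm_aeval502 s γ hγs δ' (C a + C b * X) ?_ l, hN]
  rw [hab]
  simp [Algebra.algebraMap_eq_smul_one]

/-- Evaluation at `(Ψ, Θ)` intertwines "`s` on the coefficients" and `T`. -/
theorem eval₂_map_pow502 {B : Type} [CommRing B] (s : R ≃+* R) (Ψ : R →+* B) (Θ : B)
    (T : B →+* B) (hTΨ : ∀ r, T (Ψ r) = Ψ (s r)) (hTΘ : T Θ = Θ) (p : R[X]) (i : ℕ) :
    eval₂ Ψ Θ (p.map ((s ^ i : R ≃+* R) : R →+* R)) = T^[i] (eval₂ Ψ Θ p) := by
  induction i with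
  | zero =>
    simp only [pow_zero, Function.iterate_zero, id_eq]
    congr 1
    exact Polynomial.map_id
  | succ i ih =>
    rw [Function.iterate_succ_apply', ← ih, hom_eval₂, eval₂_map, eval₂_map, hTΘ]
    congr 1
    ext r
    simp [hTΨ, pow_succ']

theorem eval₂_twPoly502 {B : Type} [CommRing B] (s : R ≃+* R) (Ψ : R →+* B) (Θ : B)
    (T : B →+* B) (hTΨ : ∀ r, T (Ψ r) = Ψ (s r)) (hTΘ : T Θ = Θ) (p : R[X]) (n : ℕ) :
    eval₂ Ψ Θ (twPoly502 s n p) = ∏ i ∈ Finset.range n, T^[i] (eval₂ Ψ Θ p) := by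
  unfold twPoly502
  rw [eval₂_finsetProd]
  exact Finset.prod_congr rfl fun i _ => eval₂_map_pow502 s Ψ Θ T hTΨ hTΘ p i

/-- **LOCAL.**  If `γ` (regular, `s γ = γ`, `s ^ l = 1`) is conjugate to a twisted norm, then `Θ`
is a `T`-norm in every commutative ring `B` with a compatible triple `(Ψ, Θ, T)`. -/
theorem exists_prod_eq502 {B : Type} [CommRing B] (s : R ≃+* R) (l : ℕ) (hs : s ^ l = 1)
    (γ : GL (Fin 2) R) (hγs : glAut s γ = γ) (hreg : IsReg γ) (δ : GL (Fin 2) R)
    (hconj : IsConj (twNorm s l δ) γ) (Ψ : R →+* B) (Θ : B)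
    (hΘ : Θ ^ 2 - Ψ (γ : Matrix (Fin 2) (Fin 2) R).trace * Θ
      + Ψ (γ : Matrix (Fin 2) (Fin 2) R).det = 0)
    (T : B →+* B) (hTΨ : ∀ r, T (Ψ r) = Ψ (s r)) (hTΘ : T Θ = Θ) :
    ∃ y : B, ∏ i ∈ Finset.range l, T^[i] y = Θ := by
  obtain ⟨p, hp⟩ := exists_poly_of_isConj502 s l hs γ hγs hreg δ hconj
  refine ⟨eval₂ Ψ Θ p, ?_⟩
  rw [← eval₂_twPoly502 s Ψ Θ T hTΨ hTΘ p l]
  have h0 : aeval (γ : Matrix (Fin 2) (Fin 2) R) (twPoly502 s l p - X) = 0 := by
    rw [map_sub, hp, aeval_X, sub_self]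
  obtain ⟨q, hq⟩ := charP_dvd502 _ hreg _ h0
  have h1 : eval₂ Ψ Θ (twPoly502 s l p - X) = 0 := by
    rw [hq, eval₂_mul, eval₂_charP502, hΘ, zero_mul]
  rw [eval₂_sub, eval₂_X, sub_eq_zero] at h1
  exact h1

/-- **GLOBAL.**  If evaluation at `γ` factors through `eval₂ Ψ Θ : R[X] → B` (onto), and `Θ` is
the `T`-norm of a unit `y` of `B`, then `γ` is a twisted norm. -/
theorem exists_twNorm_eq502 {B : Type} [CommRing B] (s : R ≃+* R) (l : ℕ)
    (γ : GL (Fin 2) R) (hγs : glAut s γ = γ) (Ψ : R →+* B) (Θ : B)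
    (T : B →+* B) (hTΨ : ∀ r, T (Ψ r) = Ψ (s r)) (hTΘ : T Θ = Θ)
    (hker : ∀ q : R[X], eval₂ Ψ Θ q = 0 → aeval (γ : Matrix (Fin 2) (Fin 2) R) q = 0)
    (hsurj : ∀ b : B, ∃ p : R[X], eval₂ Ψ Θ p = b)
    (y y' : B) (hy : y * y' = 1) (hN : ∏ i ∈ Finset.range l, T^[i] y = Θ) :
    ∃ δ : GL (Fin 2) R, twNorm s l δ = γ := by
  obtain ⟨p, hp⟩ := hsurj y
  obtain ⟨p', hp'⟩ := hsurj y'
  have h1 : aeval (γ : Matrix (Fin 2) (Fin 2) R) (p * p' - 1) = 0 := by
    apply hker
    rw [eval₂_sub, eval₂_mul, eval₂_one, hp, hp', hy, sub_self]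
  rw [map_sub, map_mul, map_one, sub_eq_zero] at h1
  have h2 : aeval (γ : Matrix (Fin 2) (Fin 2) R) p' * aeval (γ : Matrix (Fin 2) (Fin 2) R) p
      = 1 := by
    rw [← map_mul, mul_comm, map_mul]; exact h1
  let δ : GL (Fin 2) R :=
    ⟨aeval (γ : Matrix (Fin 2) (Fin 2) R) p, aeval (γ : Matrix (Fin 2) (Fin 2) R) p', h1, h2⟩
  refine ⟨δ, Units.ext ?_⟩
  rw [coe_twNorm_aeval502 s γ hγs δ p rfl l]
  have h3 : aeval (γ : Matrix (Fin 2) (Fin 2) R) (twPoly502 s l p - X) = 0 := by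
    apply hker
    rw [eval₂_sub, eval₂_X, eval₂_twPoly502 s Ψ Θ T hTΨ hTΘ, hp, hN, sub_self]
  rw [map_sub, aeval_X, sub_eq_zero] at h3
  exact h3

end Fermat.Agent.LT.T6.H502

end
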