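import Mathlib
import Fermat.Agent.LT.T6.Spec
import Fermat.Agent.LT.T6.H502.Core

/-!
# Row LT, tower T6, sub-leaf T6.07 (helper502): the fields `L = K[X]/(f)`, `M = K'[X]/(f)`

OFF-MAIN.  Mathlib only.

`K'/K` a finite extension with an automorphism `s` over `K`, `f ∈ K[X]` irreducible over `K` and
over `K'`.  `L = AdjoinRoot f`, `M = AdjoinRoot (f.map (algebraMap K K'))`, `L → M` the evident
map, `τ ∈ Aut(M/L)` = "`s` on the coefficients".
-/

set_option autoImplicit false
set_option linter.style.haveILetI false

open Polynomial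

noncomputable section

namespace Fermat.Agent.LT.T6.H502

section Fields

variable {K K' : Type} [Field K] [Field K'] [Algebra K K'] (f : K[X])

/-- The evident homomorphism `K[X]/(f) → K'[X]/(f)`. -/
def phi502 : AdjoinRoot f →+* AdjoinRoot (f.map (algebraMap K K')) :=
  AdjoinRoot.lift ((AdjoinRoot.of (f.map (algebraMap K K'))).comp (algebraMap K K'))
    (AdjoinRoot.root (f.map (algebraMap K K')))
    (by rw [← eval₂_map]; exact AdjoinRoot.eval₂_root _)

theorem phi_of502 (x : K) :
    phi502 (K' := K') f (AdjoinRoot.of f x)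
      = AdjoinRoot.of (f.map (algebraMap K K')) (algebraMap K K' x) := by
  unfold phi502
  rw [AdjoinRoot.lift_of]
  rfl

theorem phi_root502 :
    phi502 (K' := K') f (AdjoinRoot.root f) = AdjoinRoot.root (f.map (algebraMap K K')) := by
  unfold phi502
  rw [AdjoinRoot.lift_root]

theorem phi_mk502 (q : K[X]) :
    phi502 (K' := K') f (AdjoinRoot.mk f q)
      = AdjoinRoot.mk (f.map (algebraMap K K')) (q.map (algebraMap K K')) := by
  unfold phi502
  rw [AdjoinRoot.lift_mk, ← eval₂_map, ← AdjoinRoot.aeval_eq, aeval_def, AdjoinRoot.algebraMap_eq]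

/-- The `L`-algebra structure of `M`. -/
@[reducible] def algLM502 : Algebra (AdjoinRoot f) (AdjoinRoot (f.map (algebraMap K K'))) :=
  (phi502 f).toAlgebra

attribute [local instance] algLM502

theorem algebraMap_LM502 (c : AdjoinRoot f) :
    algebraMap (AdjoinRoot f) (AdjoinRoot (f.map (algebraMap K K'))) c = phi502 f c := rfl

instance towerKLM502 : IsScalarTower K (AdjoinRoot f) (AdjoinRoot (f.map (algebraMap K K'))) :=
  IsScalarTower.of_algebraMap_eq fun x => by
    rw [algebraMap_LM502, AdjoinRoot.algebraMap_eq, phi_of502, AdjoinRoot.algebraMap_eq']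
    rfl

/-- "`s` on the coefficients" as a ring endomorphism of `M`. -/
def tauRing502 (s : K' ≃ₐ[K] K') :
    AdjoinRoot (f.map (algebraMap K K')) →+* AdjoinRoot (f.map (algebraMap K K')) :=
  AdjoinRoot.lift ((AdjoinRoot.of (f.map (algebraMap K K'))).comp ((s : K' ≃+* K') : K' →+* K'))
    (AdjoinRoot.root (f.map (algebraMap K K')))
    (by
      rw [eval₂_map]
      have h : (((AdjoinRoot.of (f.map (algebraMap K K'))).comp
          ((s : K' ≃+* K') : K' →+* K')).comp (algebraMap K K'))
          = (AdjoinRoot.of (f.map (algebraMap K K'))).comp (algebraMap K K') := by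
        ext x
        simp
      rw [h, ← eval₂_map]
      exact AdjoinRoot.eval₂_root _)

theorem tauRing_of502 (s : K' ≃ₐ[K] K') (x : K') :
    tauRing502 f s (AdjoinRoot.of (f.map (algebraMap K K')) x)
      = AdjoinRoot.of (f.map (algebraMap K K')) (s x) := by
  unfold tauRing502
  rw [AdjoinRoot.lift_of]
  rfl

theorem tauRing_root502 (s : K' ≃ₐ[K] K') :
    tauRing502 f s (AdjoinRoot.root (f.map (algebraMap K K')))
      = AdjoinRoot.root (f.map (algebraMap K K')) := by
  unfold tauRing502
  rw [AdjoinRoot.lift_root]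

theorem tauRing_phi502 (s : K' ≃ₐ[K] K') (c : AdjoinRoot f) :
    tauRing502 f s (phi502 f c) = phi502 f c := by
  induction c using AdjoinRoot.induction_on with
  | ih q =>
    rw [phi_mk502]
    induction q using Polynomial.induction_on' with
    | add p q hp hq => rw [Polynomial.map_add, map_add, map_add, hp, hq]
    | monomial n a =>
      rw [Polynomial.map_monomial, ← C_mul_X_pow_eq_monomial, map_mul, map_pow, AdjoinRoot.mk_C,
        AdjoinRoot.mk_X, map_mul, map_pow, tauRing_of502, tauRing_root502, s.commutes]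

/-- "`s` on the coefficients" as an `L`-algebra endomorphism of `M`. -/
def tauAlg502 (s : K' ≃ₐ[K] K') :
    AdjoinRoot (f.map (algebraMap K K')) →ₐ[AdjoinRoot f] AdjoinRoot (f.map (algebraMap K K')) :=
  { tauRing502 f s with
    commutes' := fun c => tauRing_phi502 f s c }

theorem tauAlg_apply502 (s : K' ≃ₐ[K] K') (y : AdjoinRoot (f.map (algebraMap K K'))) :
    tauAlg502 f s y = tauRing502 f s y := rfl

end Fields

end Fermat.Agent.LT.T6.H502

end
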