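import Mathlib
import Fermat.Agent.LT.T6.Spec
import Fermat.Agent.LT.T6.H502.Fields

/-!
# Row LT, tower T6, sub-leaf T6.07 (helper502): `M / L` is cyclic Galois with generator `τ`

OFF-MAIN.  Mathlib only.
-/

set_option autoImplicit false
set_option linter.style.haveILetI false
set_option linter.unusedSectionVars false

open Polynomial

noncomputable section

namespace Fermat.Agent.LT.T6.H502

section Galois

variable {K K' : Type} [Field K] [Field K'] [Algebra K K'] [FiniteDimensional K K'] (f : K[X])
  [hf : Fact (Irreducible f)] [hg : Fact (Irreducible (f.map (algebraMap K K')))]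

attribute [local instance] algLM502

theorem finite_KL502 : Module.Finite K (AdjoinRoot f) :=
  (AdjoinRoot.powerBasis hf.out.ne_zero).finite

theorem finite_K'M502 : Module.Finite K' (AdjoinRoot (f.map (algebraMap K K'))) :=
  (AdjoinRoot.powerBasis hg.out.ne_zero).finite

theorem finite_KM502 : Module.Finite K (AdjoinRoot (f.map (algebraMap K K'))) := by
  haveI := finite_K'M502 (K' := K') f
  exact Module.Finite.trans K' _

theorem finite_LM502 : Module.Finite (AdjoinRoot f) (AdjoinRoot (f.map (algebraMap K K'))) := by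
  haveI := finite_KM502 (K' := K') f
  exact Module.Finite.of_restrictScalars_finite K (AdjoinRoot f) _

theorem finrank_LM502 :
    Module.finrank (AdjoinRoot f) (AdjoinRoot (f.map (algebraMap K K')))
      = Module.finrank K K' := by
  haveI := finite_KL502 f
  haveI := finite_K'M502 (K' := K') f
  haveI := finite_LM502 (K' := K') f
  have h1 : Module.finrank K (AdjoinRoot f) = f.natDegree := by
    rw [(AdjoinRoot.powerBasis hf.out.ne_zero).finrank, AdjoinRoot.powerBasis_dim]
  have h2 : Module.finrank K' (AdjoinRoot (f.map (algebraMap K K'))) = f.natDegree := by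
    rw [(AdjoinRoot.powerBasis hg.out.ne_zero).finrank, AdjoinRoot.powerBasis_dim,
      natDegree_map]
  have h3 := Module.finrank_mul_finrank K K' (AdjoinRoot (f.map (algebraMap K K')))
  have h4 := Module.finrank_mul_finrank K (AdjoinRoot f) (AdjoinRoot (f.map (algebraMap K K')))
  rw [h2] at h3
  rw [h1, ← h3, mul_comm] at h4
  have hpos : 0 < f.natDegree := hf.out.natDegree_pos
  exact Nat.eq_of_mul_eq_mul_right hpos h4

/-- `τ ∈ Aut(M/L)`. -/
def tau502 (s : K' ≃ₐ[K] K') :
    AdjoinRoot (f.map (algebraMap K K')) ≃ₐ[AdjoinRoot f] AdjoinRoot (f.map (algebraMap K K')) :=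
  AlgEquiv.ofBijective (tauAlg502 f s)
    (haveI := finite_LM502 (K' := K') f; AlgHom.bijective _)

theorem tau_apply502 (s : K' ≃ₐ[K] K') (y : AdjoinRoot (f.map (algebraMap K K'))) :
    tau502 f s y = tauRing502 f s y := by
  unfold tau502
  rw [AlgEquiv.ofBijective_apply]
  rfl

theorem tau_of502 (s : K' ≃ₐ[K] K') (x : K') :
    tau502 f s (AdjoinRoot.of (f.map (algebraMap K K')) x)
      = AdjoinRoot.of (f.map (algebraMap K K')) (s x) := by
  rw [tau_apply502, tauRing_of502]

theorem tau_pow_of502 (s : K' ≃ₐ[K] K') (n : ℕ) (x : K') :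
    (tau502 f s ^ n) (AdjoinRoot.of (f.map (algebraMap K K')) x)
      = AdjoinRoot.of (f.map (algebraMap K K')) ((s ^ n) x) := by
  induction n generalizing x with
  | zero => simp
  | succ n ih =>
    rw [pow_succ, AlgEquiv.mul_apply, tau_of502, ih, pow_succ, AlgEquiv.mul_apply]

theorem tau_pow_injective502 (s : K' ≃ₐ[K] K') (l : ℕ)
    (hinj : ∀ i j : ℕ, i < l → j < l → s ^ i = s ^ j → i = j) :
    Function.Injective (fun i : Fin l => tau502 f s ^ (i : ℕ)) := by
  intro i j hij
  apply Fin.ext
  apply hinj i j i.2 j.2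
  ext x
  have h1 := tau_pow_of502 f s i x
  have h2 := tau_pow_of502 f s j x
  have h3 : (tau502 f s ^ (i : ℕ)) = (tau502 f s ^ (j : ℕ)) := hij
  rw [h3, h2] at h1
  exact (AdjoinRoot.coe_injective' (f := f.map (algebraMap K K'))) h1.symm

theorem card_gal502 (s : K' ≃ₐ[K] K') (l : ℕ) (hl : Module.finrank K K' = l)
    (hinj : ∀ i j : ℕ, i < l → j < l → s ^ i = s ^ j → i = j) :
    Nat.card (AdjoinRoot (f.map (algebraMap K K')) ≃ₐ[AdjoinRoot f]
      AdjoinRoot (f.map (algebraMap K K'))) = l := by
  haveI := finite_LM502 (K' := K') f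
  apply le_antisymm
  · have h := AlgEquiv.card_le (F := AdjoinRoot f) (K := AdjoinRoot (f.map (algebraMap K K')))
    rw [finrank_LM502, hl] at h
    rwa [Nat.card_eq_fintype_card]
  · have h := Nat.card_le_card_of_injective _ (tau_pow_injective502 f s l hinj)
    simpa using h

theorem isGalois_LM502 (s : K' ≃ₐ[K] K') (l : ℕ) (hl : Module.finrank K K' = l)
    (hinj : ∀ i j : ℕ, i < l → j < l → s ^ i = s ^ j → i = j) :
    IsGalois (AdjoinRoot f) (AdjoinRoot (f.map (algebraMap K K'))) := by
  haveI := finite_LM502 (K' := K') f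
  apply IsGalois.of_card_aut_eq_finrank
  rw [card_gal502 f s l hl hinj, finrank_LM502, hl]

theorem tau_pow_bijective502 (s : K' ≃ₐ[K] K') (l : ℕ) (hl : Module.finrank K K' = l)
    (hinj : ∀ i j : ℕ, i < l → j < l → s ^ i = s ^ j → i = j) :
    Function.Bijective (fun i : Fin l => tau502 f s ^ (i : ℕ)) := by
  haveI := finite_LM502 (K' := K') f
  refine (tau_pow_injective502 f s l hinj).bijective_of_nat_card_le ?_
  rw [card_gal502 f s l hl hinj]
  simp

end Galois

end Fermat.Agent.LT.T6.H502

end
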