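import Mathlib

/-!
# Row LT, tower T6, sub-leaf T6.07 (helper502): maps between completions

OFF-MAIN.  Mathlib only.

For number fields `L / K`:
* `finMap502 u : K_v →+* L_u` for a finite place `u` of `L`, `v = u ∩ 𝓞 K`;
* `infMap502 u : K_w →+* L_u` for an infinite place `u` of `L`, `w = u.comap (algebraMap K L)`;
both compatible with `K → L`.
-/

set_option autoImplicit false

open IsDedekindDomain NumberField

noncomputable section

namespace Fermat.Agent.LT.T6.H502

section Fin

variable (K : Type) {L : Type} [Field K] [NumberField K] [Field L] [NumberField L] [Algebra K L]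

/-- The place of `K` under a finite place of `L`. -/
def finUnder502 (u : HeightOneSpectrum (𝓞 L)) : HeightOneSpectrum (𝓞 K) :=
  u.under (𝓞 K)

instance finUnder_liesOver502 (u : HeightOneSpectrum (𝓞 L)) :
    u.asIdeal.LiesOver (finUnder502 K u).asIdeal :=
  ⟨rfl⟩

/-- The map `K_v → L_u`. -/
def finMap502 (u : HeightOneSpectrum (𝓞 L)) :
    (finUnder502 K u).adicCompletion K →+* u.adicCompletion L :=
  ((HeightOneSpectrum.adicCompletion.equiv L u).symm.toRingHom.comp
    (UniformSpace.Completion.mapRingHom
      (algebraMap (WithVal ((finUnder502 K u).valuation K)) (WithVal (u.valuation L)))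
      (HeightOneSpectrum.uniformContinuous_algebraMap_liesOver K L
        (finUnder502 K u) u).continuous)).comp
    (HeightOneSpectrum.adicCompletion.equiv K (finUnder502 K u)).toRingHom

theorem finMap_algebraMap502 (u : HeightOneSpectrum (𝓞 L)) (x : K) :
    finMap502 K u (algebraMap K ((finUnder502 K u).adicCompletion K) x)
      = algebraMap L (u.adicCompletion L) (algebraMap K L x) := by
  apply HeightOneSpectrum.adicCompletion.ext
  show UniformSpace.Completion.mapRingHom _ _
    ((algebraMap K ((finUnder502 K u).adicCompletion K) x).toCompletion) = _
  rw [HeightOneSpectrum.algebraMap_adicCompletion_toCompletion,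
    HeightOneSpectrum.algebraMap_adicCompletion_toCompletion]
  exact UniformSpace.Completion.mapRingHom_coe _ _

end Fin

section Inf

open scoped NumberField.LiesOver

variable (K : Type) {L : Type} [Field K] [NumberField K] [Field L] [NumberField L] [Algebra K L]

/-- The place of `K` under an infinite place of `L`. -/
def infUnder502 (u : InfinitePlace L) : InfinitePlace K :=
  u.comap (algebraMap K L)

instance infUnder_liesOver502 (u : InfinitePlace L) : u.LiesOver (infUnder502 K u) :=
  ⟨rfl⟩

/-- The map `K_w → L_u`. -/
def infMap502 (u : InfinitePlace L) : (infUnder502 K u).Completion →+* u.Completion :=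
  NumberField.LiesOver.completionMap

theorem infMap_algebraMap502 (u : InfinitePlace L) (x : K) :
    infMap502 K u (algebraMap K (infUnder502 K u).Completion x)
      = algebraMap L u.Completion (algebraMap K L x) := by
  have h : algebraMap K (infUnder502 K u).Completion x
      = ((WithAbs.toAbs (infUnder502 K u).1 x : WithAbs (infUnder502 K u).1) :
          (infUnder502 K u).Completion) := rfl
  rw [infMap502, h, NumberField.LiesOver.completionMap_coe]
  apply InfinitePlace.Completion.ext
  rw [InfinitePlace.Completion.algebraMap_toCompletion, UniformSpace.Completion.algebraMap_def]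
  simp [WithAbs.algebraMap_left_apply, WithAbs.algebraMap_right_apply]

end Inf

end Fermat.Agent.LT.T6.H502

end
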