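import Mathlib

/-!
# Row LT, tower T6, sub-leaf T6.07 (helper502): norm = product over the Galois group, after
base change

OFF-MAIN.  Mathlib only.

`M / L` finite Galois (`L` infinite), `A` a commutative `L`-algebra.  For every `y ∈ A ⊗_L M`

    algebraMap A (A ⊗ M) (Algebra.norm A y) = ∏_{σ ∈ Gal(M/L)} (1 ⊗ σ) y

(`algebraMap_norm_eq_prod502`).  Proof: both sides are polynomial in the coordinates of `y`; the
two polynomials (over `M`) agree on `Lⁿ` by `Algebra.norm_eq_prod_automorphisms`, hence are equal.
-/

set_option autoImplicit false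

open scoped TensorProduct

noncomputable section

namespace Fermat.Agent.LT.T6.H502

section NormProd

variable {L M : Type*} [Field L] [Field M] [Algebra L M] [FiniteDimensional L M]

/-- The generic left multiplication matrix, over `MvPolynomial (Fin n) L`. -/
def genMat502 {n : ℕ} (b : Module.Basis (Fin n) L M) :
    Matrix (Fin n) (Fin n) (MvPolynomial (Fin n) L) :=
  fun i k => ∑ j, MvPolynomial.X j * MvPolynomial.C (Algebra.leftMulMatrix b (b j) i k)

/-- The generic norm polynomial. -/
def genNorm502 {n : ℕ} (b : Module.Basis (Fin n) L M) : MvPolynomial (Fin n) L :=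
  (genMat502 b).det

omit [FiniteDimensional L M] in
/-- Evaluating the generic norm polynomial in an `L`-algebra `S` at `c` gives the determinant of
`∑ c_j [b_j]`. -/
theorem aeval_genNorm502 {n : ℕ} (b : Module.Basis (Fin n) L M) {S : Type*} [CommRing S]
    [Algebra L S] (c : Fin n → S) :
    MvPolynomial.aeval c (genNorm502 b)
      = Matrix.det (fun i k => ∑ j, c j * algebraMap L S (Algebra.leftMulMatrix b (b j) i k)) := by
  unfold genNorm502
  rw [AlgHom.map_det]
  congr 1
  ext i k
  simp [genMat502, AlgHom.mapMatrix_apply, Matrix.map_apply]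

omit [FiniteDimensional L M] in
/-- The norm of `∑ a_j ⊗ b_j` over `A`. -/
theorem norm_sum_tmul502 {n : ℕ} (b : Module.Basis (Fin n) L M) {A : Type*} [CommRing A]
    [Algebra L A] (a : Fin n → A) :
    Algebra.norm A (∑ j, a j ⊗ₜ[L] b j : A ⊗[L] M) = MvPolynomial.aeval a (genNorm502 b) := by
  rw [Algebra.norm_eq_matrix_det (Algebra.TensorProduct.basis A b), aeval_genNorm502]
  congr 1
  ext i k
  rw [Algebra.leftMulMatrix_eq_repr_mul, Algebra.TensorProduct.basis_apply, Finset.sum_mul,
    map_sum, Finsupp.coe_finsetSum, Finset.sum_apply]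
  refine Finset.sum_congr rfl fun j _ => ?_
  rw [Algebra.TensorProduct.tmul_mul_tmul, mul_one, Algebra.TensorProduct.basis_repr_tmul,
    Algebra.leftMulMatrix_eq_repr_mul]
  simp

/-- The norm of `∑ x_j b_j` over `L`. -/
theorem norm_sum_smul502 {n : ℕ} (b : Module.Basis (Fin n) L M) (x : Fin n → L) :
    Algebra.norm L (∑ j, x j • b j : M) = MvPolynomial.eval x (genNorm502 b) := by
  have h := aeval_genNorm502 b (S := L) x
  rw [MvPolynomial.aeval_eq_eval] at h
  rw [Algebra.norm_eq_matrix_det b, h]
  congr 1
  ext i k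
  rw [map_sum, Matrix.sum_apply]
  refine Finset.sum_congr rfl fun j _ => ?_
  rw [map_smul, Matrix.smul_apply, smul_eq_mul]
  simp

variable [IsGalois L M] [Infinite L]

/-- The polynomial identity behind `Algebra.norm_eq_prod_automorphisms`. -/
theorem map_genNorm502 {n : ℕ} (b : Module.Basis (Fin n) L M) :
    MvPolynomial.map (algebraMap L M) (genNorm502 b)
      = ∏ σ : M ≃ₐ[L] M, ∑ j, MvPolynomial.X j * MvPolynomial.C (σ (b j)) := by
  refine MvPolynomial.funext_set (fun _ => Set.range (algebraMap L M))
    (fun _ => Set.infinite_range_of_injective (algebraMap L M).injective) ?_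
  intro x hx
  have hx' : ∀ j, ∃ c : L, algebraMap L M c = x j := fun j => hx j (Set.mem_univ j)
  choose x₀ hx₀ using hx'
  have hx₁ : x = fun j => algebraMap L M (x₀ j) := funext fun j => (hx₀ j).symm
  rw [MvPolynomial.eval_map, hx₁]
  have h1 : MvPolynomial.eval₂ (algebraMap L M) (fun j => algebraMap L M (x₀ j)) (genNorm502 b)
      = algebraMap L M (MvPolynomial.eval x₀ (genNorm502 b)) := by
    have := MvPolynomial.eval₂_comp_left (algebraMap L M) (RingHom.id L) x₀ (genNorm502 b)
    rw [RingHom.comp_id] at this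
    rw [MvPolynomial.eval, MvPolynomial.coe_eval₂Hom, this]
    rfl
  rw [h1, ← norm_sum_smul502, Algebra.norm_eq_prod_automorphisms, map_prod]
  refine Finset.prod_congr rfl fun σ _ => ?_
  rw [map_sum, map_sum]
  refine Finset.sum_congr rfl fun j _ => ?_
  simp [Algebra.smul_def]

/-- **Norm = product over the Galois group, after base change.** -/
theorem algebraMap_norm_eq_prod502 {A : Type*} [CommRing A] [Algebra L A] (y : A ⊗[L] M) :
    algebraMap A (A ⊗[L] M) (Algebra.norm A y)
      = ∏ σ : M ≃ₐ[L] M, Algebra.TensorProduct.map (AlgHom.id A A) (σ : M →ₐ[L] M) y := by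
  classical
  set n := Module.finrank L M with hn
  let b : Module.Basis (Fin n) L M := Module.finBasis L M
  let bA : Module.Basis (Fin n) A (A ⊗[L] M) := Algebra.TensorProduct.basis A b
  -- coordinates of `y`
  have hy : y = ∑ j, (bA.repr y j) ⊗ₜ[L] b j := by
    conv_lhs => rw [← bA.sum_repr y]
    refine Finset.sum_congr rfl fun j _ => ?_
    rw [Algebra.TensorProduct.basis_repr_symm_apply']
  set a : Fin n → A := fun j => bA.repr y j with ha
  rw [hy, norm_sum_tmul502]
  -- the evaluation homomorphism `MvPolynomial (Fin n) M → A ⊗ M`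
  let ev : MvPolynomial (Fin n) M →+* A ⊗[L] M :=
    MvPolynomial.eval₂Hom
      ((Algebra.TensorProduct.includeRight : M →ₐ[L] A ⊗[L] M) : M →+* A ⊗[L] M)
      (fun j => a j ⊗ₜ[L] (1 : M))
  have hev : ev (MvPolynomial.map (algebraMap L M) (genNorm502 b))
      = algebraMap A (A ⊗[L] M) (MvPolynomial.aeval a (genNorm502 b)) := by
    show MvPolynomial.eval₂ _ _ (MvPolynomial.map (algebraMap L M) (genNorm502 b)) = _
    rw [MvPolynomial.eval₂_map]
    have h := MvPolynomial.eval₂_comp_left
      ((Algebra.TensorProduct.includeLeft : A →ₐ[A] A ⊗[L] M) : A →+* A ⊗[L] M)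
      (algebraMap L A) a (genNorm502 b)
    have h2 : algebraMap A (A ⊗[L] M) (MvPolynomial.aeval a (genNorm502 b))
        = ((Algebra.TensorProduct.includeLeft : A →ₐ[A] A ⊗[L] M) : A →+* A ⊗[L] M)
            (MvPolynomial.eval₂ (algebraMap L A) a (genNorm502 b)) := by
      rw [MvPolynomial.aeval_def]
      rfl
    rw [h2, h]
    congr 1
    ext c
    simp [Algebra.TensorProduct.includeLeft, Algebra.TensorProduct.includeRight,
      Algebra.algebraMap_eq_smul_one, TensorProduct.smul_tmul]
  rw [← hev, map_genNorm502, map_prod]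
  refine Finset.prod_congr rfl fun σ _ => ?_
  rw [map_sum, map_sum]
  refine Finset.sum_congr rfl fun j _ => ?_
  simp [ev, a]

end NormProd

end Fermat.Agent.LT.T6.H502

end
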