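import Mathlib
import Fermat.Agent.LT.T6.Spec
import Fermat.Agent.LT.T6.H502.Core
import Fermat.Agent.LT.T6.H502.NormProd

/-!
# Row LT, tower T6, sub-leaf T6.07 (helper502): the local step

OFF-MAIN.  Mathlib only + `T6/Spec.lean`.

`K'/K` cyclic with generator `s`, `L = K(θ)`, `M = K' L`, `τ ∈ Gal(M/L)` the extension of `s`.
`F` a `K`-algebra and `E` an `L`-algebra (fields; `F = K_v`, `E = L_u` in the application) with a
compatible ring homomorphism `ι : F → E`.  If `γ` is conjugate in `GL₂(K' ⊗_K F)` to a twisted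
norm, then `θ` is a norm from `E ⊗_L M` (`locstep502`).
-/

set_option autoImplicit false
set_option linter.style.haveILetI false
set_option linter.unnecessarySimpa false

open scoped TensorProduct
open Polynomial

noncomputable section

namespace Fermat.Agent.LT.T6.H502

open Fermat.Agent.LT.T6

section LocStep

variable {K K' L M : Type} [Field K] [Field K'] [Field L] [Field M]
  [Algebra K K'] [Algebra K L] [Algebra K' M] [Algebra L M] [Algebra K M]
  [IsScalarTower K K' M] [IsScalarTower K L M]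

/-- `s ⊗ 1` on `K' ⊗_K F`. -/
abbrev sTens502 (s : K' ≃ₐ[K] K') (F : Type) [Field F] [Algebra K F] :
    K' ⊗[K] F ≃+* K' ⊗[K] F :=
  (Algebra.TensorProduct.congr s (AlgEquiv.refl : F ≃ₐ[K] F) :
    K' ⊗[K] F ≃ₐ[K] K' ⊗[K] F).toRingEquiv

omit [Field L] [Field M] [Algebra K L] [Algebra K' M] [Algebra L M] [Algebra K M]
  [IsScalarTower K K' M] [IsScalarTower K L M] in
theorem sTens_pow_tmul502 (s : K' ≃ₐ[K] K') (F : Type) [Field F] [Algebra K F] (n : ℕ)
    (k : K') (x : F) : (sTens502 s F ^ n) (k ⊗ₜ[K] x) = ((s ^ n) k) ⊗ₜ[K] x := by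
  induction n generalizing k with
  | zero => simp
  | succ n ih =>
    rw [pow_succ, RingAut.mul_apply]
    have h1 : sTens502 s F (k ⊗ₜ[K] x) = (s k) ⊗ₜ[K] x := by
      simp [sTens502]
    rw [h1, ih, pow_succ, AlgEquiv.mul_apply]

omit [Field L] [Field M] [Algebra K L] [Algebra K' M] [Algebra L M] [Algebra K M]
  [IsScalarTower K K' M] [IsScalarTower K L M] in
theorem sTens_pow502 (s : K' ≃ₐ[K] K') (F : Type) [Field F] [Algebra K F] (l : ℕ)
    (hs : s ^ l = 1) : sTens502 s F ^ l = 1 := by
  ext r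
  induction r using TensorProduct.induction_on with
  | zero => simp
  | tmul k x => rw [sTens_pow_tmul502, hs]; rfl
  | add a b ha hb => rw [map_add, ha, hb]; rfl

variable [FiniteDimensional L M] [IsGalois L M] [Infinite L]

/-- **The local step.** -/
theorem locstep502 (s : K' ≃ₐ[K] K') (l : ℕ) (hs : s ^ l = 1) (τ : M ≃ₐ[L] M)
    (hτ : ∀ x : K', τ (algebraMap K' M x) = algebraMap K' M (s x))
    (hbij : Function.Bijective (fun i : Fin l => τ ^ (i : ℕ)))
    (γ : GL (Fin 2) K) (hreg : IsReg γ) (θ : L)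
    (hθ : θ ^ 2 - algebraMap K L (γ : Matrix (Fin 2) (Fin 2) K).trace * θ
      + algebraMap K L (γ : Matrix (Fin 2) (Fin 2) K).det = 0)
    {F E : Type} [Field F] [Algebra K F] [Field E] [Algebra L E] (ι : F →+* E)
    (hι : ∀ x : K, ι (algebraMap K F x) = algebraMap L E (algebraMap K L x))
    (δ : GL (Fin 2) (K' ⊗[K] F))
    (hδ : IsConj (twNorm (sTens502 s F) l δ)
      (Matrix.GeneralLinearGroup.map
        ((Algebra.TensorProduct.includeRight : F →ₐ[K] K' ⊗[K] F) : F →+* K' ⊗[K] F)
        (Matrix.GeneralLinearGroup.map (algebraMap K F) γ))) :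
    ∃ y : E ⊗[L] M, Algebra.norm E y = algebraMap L E θ := by
  classical
  -- notation
  set incR : F →+* K' ⊗[K] F :=
    ((Algebra.TensorProduct.includeRight : F →ₐ[K] K' ⊗[K] F) : F →+* K' ⊗[K] F) with hincR
  set γR : GL (Fin 2) (K' ⊗[K] F) :=
    Matrix.GeneralLinearGroup.map incR (Matrix.GeneralLinearGroup.map (algebraMap K F) γ)
    with hγR
  set incM : M →+* E ⊗[L] M :=
    ((Algebra.TensorProduct.includeRight : M →ₐ[L] E ⊗[L] M) : M →+* E ⊗[L] M) with hincM
  set incE : E →+* E ⊗[L] M :=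
    ((Algebra.TensorProduct.includeLeft : E →ₐ[E] E ⊗[L] M) : E →+* E ⊗[L] M) with hincE
  have hLM : ∀ c : L, incE (algebraMap L E c) = incM (algebraMap L M c) := by
    intro c
    show (algebraMap L E c) ⊗ₜ[L] (1 : M) = (1 : E) ⊗ₜ[L] (algebraMap L M c)
    rw [Algebra.algebraMap_eq_smul_one, Algebra.algebraMap_eq_smul_one, TensorProduct.smul_tmul]
  -- the homomorphism Ψ
  letI algKB : Algebra K (E ⊗[L] M) :=
    ((algebraMap L (E ⊗[L] M)).comp (algebraMap K L)).toAlgebra
  have halgKB : ∀ k : K, algebraMap K (E ⊗[L] M) k = incE (algebraMap L E (algebraMap K L k)) :=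
    fun k => rfl
  let f₁ : K' →ₐ[K] E ⊗[L] M :=
    { toRingHom := incM.comp (algebraMap K' M)
      commutes' := fun k => by
        show incM (algebraMap K' M (algebraMap K K' k)) = _
        rw [halgKB, hLM, ← IsScalarTower.algebraMap_apply K K' M,
          IsScalarTower.algebraMap_apply K L M] }
  let f₂ : F →ₐ[K] E ⊗[L] M :=
    { toRingHom := incE.comp ι
      commutes' := fun k => by
        show incE (ι (algebraMap K F k)) = _
        rw [halgKB, hι] }
  let Ψ : K' ⊗[K] F →+* E ⊗[L] M :=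
    (Algebra.TensorProduct.lift f₁ f₂ (fun _ _ => Commute.all _ _)).toRingHom
  have hΨ : ∀ (k : K') (x : F), Ψ (k ⊗ₜ[K] x) = incM (algebraMap K' M k) * incE (ι x) := by
    intro k x
    show (Algebra.TensorProduct.lift f₁ f₂ _) (k ⊗ₜ[K] x) = _
    rw [Algebra.TensorProduct.lift_tmul]
    rfl
  have hΨK : ∀ k : K, Ψ (incR (algebraMap K F k))
      = incM (algebraMap L M (algebraMap K L k)) := by
    intro k
    have : incR (algebraMap K F k) = (1 : K') ⊗ₜ[K] (algebraMap K F k) := rfl
    rw [this, hΨ, map_one, map_one, one_mul, hι, hLM]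
  set Θ : E ⊗[L] M := incM (algebraMap L M θ) with hΘdef
  let T : E ⊗[L] M →+* E ⊗[L] M :=
    (Algebra.TensorProduct.map (AlgHom.id E E) (τ : M →ₐ[L] M)).toRingHom
  have hTtmul : ∀ (e : E) (m : M), T (e ⊗ₜ[L] m) = e ⊗ₜ[L] τ m := by
    intro e m
    show (Algebra.TensorProduct.map (AlgHom.id E E) (τ : M →ₐ[L] M)) (e ⊗ₜ[L] m) = _
    rw [Algebra.TensorProduct.map_tmul]
    rfl
  have hTincM : ∀ m : M, T (incM m) = incM (τ m) := fun m => hTtmul 1 m
  have hTincE : ∀ e : E, T (incE e) = incE e := by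
    intro e
    have := hTtmul e 1
    rwa [map_one] at this
  -- hypotheses of the core
  have hs' : sTens502 s F ^ l = 1 := sTens_pow502 s F l hs
  have hγs : glAut (sTens502 s F) γR = γR := by
    apply Units.ext
    ext i j
    rw [coe_glAut502]
    simp only [Matrix.map_apply, hγR, Matrix.GeneralLinearGroup.map_apply]
    show sTens502 s F ((1 : K') ⊗ₜ[K] _) = (1 : K') ⊗ₜ[K] _
    have := sTens_pow_tmul502 s F 1 (1 : K') ((algebraMap K F) (γ i j))
    simpa using this
  have htr : (γR : Matrix (Fin 2) (Fin 2) (K' ⊗[K] F)).trace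
      = incR (algebraMap K F (γ : Matrix (Fin 2) (Fin 2) K).trace) := by
    simp [hγR, Matrix.trace_fin_two]
  have hdet : (γR : Matrix (Fin 2) (Fin 2) (K' ⊗[K] F)).det
      = incR (algebraMap K F (γ : Matrix (Fin 2) (Fin 2) K).det) := by
    simp [hγR, Matrix.det_fin_two]
  have hreg' : IsReg γR := by
    have h1 : disc γR = incR (algebraMap K F (disc γ)) := by
      unfold disc
      rw [htr, hdet, map_sub, map_sub, map_pow, map_pow, map_mul, map_mul, map_ofNat,
        map_ofNat]
    unfold IsReg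
    rw [h1]
    exact (hreg.map (algebraMap K F)).map incR
  have hΘ : Θ ^ 2 - Ψ (γR : Matrix (Fin 2) (Fin 2) (K' ⊗[K] F)).trace * Θ
      + Ψ (γR : Matrix (Fin 2) (Fin 2) (K' ⊗[K] F)).det = 0 := by
    rw [htr, hdet, hΨK, hΨK, hΘdef, ← map_pow, ← map_mul, ← map_sub, ← map_add,
      ← map_pow, ← map_mul, ← map_sub, ← map_add, hθ, map_zero, map_zero]
  have hTΨ : ∀ r, T (Ψ r) = Ψ (sTens502 s F r) := by
    intro r
    induction r using TensorProduct.induction_on with
    | zero => simp
    | tmul k x =>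
      have h1 : sTens502 s F (k ⊗ₜ[K] x) = (s k) ⊗ₜ[K] x := by
        have := sTens_pow_tmul502 s F 1 k x
        simpa using this
      rw [h1, hΨ, hΨ, map_mul, hTincM, hTincE, hτ]
    | add a b ha hb => rw [map_add, map_add, map_add, map_add, ha, hb]
  have hTΘ : T Θ = Θ := by
    rw [hΘdef, hTincM, AlgEquiv.commutes]
  obtain ⟨y, hy⟩ := exists_prod_eq502 (sTens502 s F) l hs' γR hγs hreg' δ hδ Ψ Θ hΘ T hTΨ hTΘ
  refine ⟨y, ?_⟩
  -- norm = product over the Galois group
  have hnorm := algebraMap_norm_eq_prod502 (L := L) (M := M) (A := E) y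
  -- iterate of T
  have hTiter : ∀ (i : ℕ) (z : E ⊗[L] M),
      T^[i] z = Algebra.TensorProduct.map (AlgHom.id E E) ((τ ^ i : M ≃ₐ[L] M) : M →ₐ[L] M) z := by
    intro i
    induction i with
    | zero =>
      intro z
      simp only [Function.iterate_zero, id_eq, pow_zero]
      induction z using TensorProduct.induction_on with
      | zero => simp
      | tmul e m => rw [Algebra.TensorProduct.map_tmul]; rfl
      | add a b ha hb => rw [map_add, ← ha, ← hb]
    | succ i ih =>
      intro z
      rw [Function.iterate_succ_apply', ih]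
      induction z using TensorProduct.induction_on with
      | zero => simp
      | tmul e m =>
        rw [Algebra.TensorProduct.map_tmul, Algebra.TensorProduct.map_tmul, hTtmul, pow_succ']
        rfl
      | add a b ha hb => rw [map_add, map_add, map_add, ha, hb]
  have hprod : ∏ σ : M ≃ₐ[L] M,
      Algebra.TensorProduct.map (AlgHom.id E E) (σ : M →ₐ[L] M) y
        = ∏ i ∈ Finset.range l, T^[i] y := by
    rw [Finset.prod_range]
    have := Fintype.prod_bijective (fun i : Fin l => τ ^ (i : ℕ)) hbij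
      (fun i : Fin l => T^[(i : ℕ)] y)
      (fun σ : M ≃ₐ[L] M => Algebra.TensorProduct.map (AlgHom.id E E) (σ : M →ₐ[L] M) y)
      (fun i => hTiter i y)
    exact this.symm
  rw [hprod, hy] at hnorm
  have hinj : Function.Injective (algebraMap E (E ⊗[L] M)) := by
    have := Algebra.TensorProduct.includeLeft_injective (R := L) (S := E) (A := E) (B := M)
      (algebraMap L M).injective
    exact this
  apply hinj
  rw [hnorm, hΘdef, ← hLM]
  rfl

end LocStep

end Fermat.Agent.LT.T6.H502

end
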