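import Mathlib
import Fermat.Agent.LT.T6.Spec
import Fermat.Agent.LT.T6.H502.Core

/-!
# Row LT, tower T6, sub-leaf T6.07 (helper502): the split case

OFF-MAIN.  Mathlib only + `T6/Spec.lean`.

`K'/K` cyclic of prime degree `l` with generator `s`, `γ ∈ GL₂(K)` elliptic.  If the
characteristic polynomial of `γ` has a root `θ'` in `K'`, then `l = 2`, `K' = K(θ')`, and `γ` is
a norm: `K'[γ] = K' × K'` with `s` acting by `(a, b) ↦ (s b, s a)`, and
`(θ', θ'') = (θ', 1) · s(θ', 1)`.  No arithmetic is needed (`split_case502`).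
-/

set_option autoImplicit false
set_option linter.unnecessarySimpa false

open scoped Matrix
open Polynomial

noncomputable section

namespace Fermat.Agent.LT.T6.H502

open Fermat.Agent.LT.T6

section Split

variable {K K' : Type} [Field K] [Field K'] [Algebra K K']

omit [Algebra K K'] in
/-- Evaluation at a pair. -/
theorem eval₂_diag502 (a b : K') (q : K'[X]) :
    eval₂ (RingHom.prod (RingHom.id K') (RingHom.id K')) ((a, b) : K' × K') q
      = (eval a q, eval b q) := by
  apply Prod.ext
  · have := hom_eval₂ q (RingHom.prod (RingHom.id K') (RingHom.id K')) (RingHom.fst K' K')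
      ((a, b) : K' × K')
    simp only [RingHom.coe_fst] at this
    rw [this]
    rfl
  · have := hom_eval₂ q (RingHom.prod (RingHom.id K') (RingHom.id K')) (RingHom.snd K' K')
      ((a, b) : K' × K')
    simp only [RingHom.coe_snd] at this
    rw [this]
    rfl

variable [FiniteDimensional K K'] [IsGalois K K']

theorem split_case502 (s : K' ≃ₐ[K] K') (hs : ∀ t : K' ≃ₐ[K] K', t ∈ Subgroup.zpowers s)
    (l : ℕ) (hl : l.Prime) (hsl : s ^ l = 1) (γ : GL (Fin 2) K) (hell : IsEll γ) (θ' : K')
    (hθ' : θ' ^ 2 - algebraMap K K' (γ : Matrix (Fin 2) (Fin 2) K).trace * θ'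
      + algebraMap K K' (γ : Matrix (Fin 2) (Fin 2) K).det = 0) :
    ∃ δ : GL (Fin 2) K',
      twNorm (s : K' ≃+* K') l δ = Matrix.GeneralLinearGroup.map (algebraMap K K') γ := by
  classical
  set t' : K' := algebraMap K K' (γ : Matrix (Fin 2) (Fin 2) K).trace with ht'
  set d' : K' := algebraMap K K' (γ : Matrix (Fin 2) (Fin 2) K).det with hd'
  set θ'' : K' := t' - θ' with hθ''
  set γ' : GL (Fin 2) K' := Matrix.GeneralLinearGroup.map (algebraMap K K') γ with hγ'
  have htr' : (γ' : Matrix (Fin 2) (Fin 2) K').trace = t' := by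
    simp [hγ', ht', Matrix.trace_fin_two]
  have hdet' : (γ' : Matrix (Fin 2) (Fin 2) K').det = d' := by
    simp [hγ', hd', Matrix.det_fin_two]
  have hst : s t' = t' := s.commutes _
  have hsd : s d' = d' := s.commutes _
  have hsroot : (s θ') ^ 2 - t' * s θ' + d' = 0 := by
    have := congrArg s hθ'
    simpa [map_sub, map_add, map_mul, map_pow, hst, hsd] using this
  have hroots : ∀ x : K', x ^ 2 - t' * x + d' = 0 → x = θ' ∨ x = θ'' := by
    intro x hx
    have h : (x - θ') * (x - θ'') = 0 := by
      rw [hθ'']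
      linear_combination hx - hθ'
    rcases mul_eq_zero.mp h with h | h
    · left; linear_combination h
    · right; linear_combination h
  -- the discriminant
  have hdisc : (θ' - θ'') ^ 2 = algebraMap K K' (disc γ) := by
    unfold disc
    rw [map_sub, map_pow, map_mul, map_ofNat, ← ht', ← hd', hθ'']
    linear_combination 4 * hθ'
  have hne12 : θ' ≠ θ'' := by
    intro h
    rw [h, sub_self] at hdisc
    have h0 : algebraMap K K' (disc γ) = 0 := by rw [← hdisc]; ring
    have h1 : disc γ = 0 := (algebraMap K K').injective (by rw [h0, map_zero])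
    exact hell.1.ne_zero h1
  -- θ' is not fixed
  have hne : s θ' ≠ θ' := by
    intro hfix
    have hmem : s ∈ MulAction.stabilizer (K' ≃ₐ[K] K') θ' := by
      rw [MulAction.mem_stabilizer_iff]; exact hfix
    have hle : Subgroup.zpowers s ≤ MulAction.stabilizer (K' ≃ₐ[K] K') θ' :=
      (Subgroup.zpowers_le).mpr hmem
    have hall : ∀ t : K' ≃ₐ[K] K', t θ' = θ' := fun t => by
      have := hle (hs t)
      rw [MulAction.mem_stabilizer_iff] at this
      exact this
    obtain ⟨x, hx⟩ := (IsGalois.mem_range_algebraMap_iff_fixed θ').mpr hall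
    apply hell.2 x
    apply (algebraMap K K').injective
    rw [map_zero, map_add, map_sub, map_pow, map_mul, hx]
    exact hθ'
  have hsθ' : s θ' = θ'' := (hroots _ hsroot).resolve_left hne
  have hsθ'' : s θ'' = θ' := by
    rw [hθ'', map_sub, hst, hsθ', hθ'']; ring
  -- l = 2
  have hpow : ∀ n : ℕ, (s ^ n) θ' = if Even n then θ' else θ'' := by
    intro n
    induction n with
    | zero => simp
    | succ n ih =>
      rw [pow_succ', AlgEquiv.mul_apply, ih]
      by_cases hn : Even n
      · rw [if_pos hn, if_neg (by rw [Nat.even_add_one]; exact not_not.mpr hn), hsθ']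
      · rw [if_neg hn, if_pos (by rw [Nat.even_add_one]; exact hn), hsθ'']
  have hl2 : l = 2 := by
    by_contra h
    have hodd : ¬ Even l := by
      rcases hl.eq_two_or_odd' with h2 | h2
      · exact absurd h2 h
      · exact Nat.not_even_iff_odd.mpr h2
    have := hpow l
    rw [hsl, if_neg hodd] at this
    exact hne12 (by simpa using this)
  subst hl2
  -- the compatible triple on `K' × K'`
  let Ψ : K' →+* K' × K' := RingHom.prod (RingHom.id K') (RingHom.id K')
  let T : K' × K' →+* K' × K' :=
    RingHom.prod (((s : K' ≃+* K') : K' →+* K').comp (RingHom.snd K' K'))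
      (((s : K' ≃+* K') : K' →+* K').comp (RingHom.fst K' K'))
  have hT : ∀ a b : K', T (a, b) = (s b, s a) := fun a b => rfl
  have hγs : glAut (s : K' ≃+* K') γ' = γ' := by
    apply Units.ext
    ext i j
    rw [coe_glAut502]
    simp [hγ', Matrix.GeneralLinearGroup.map_apply]
  have hθ'0 : θ' ≠ 0 := by
    intro h0
    rw [h0] at hθ'
    have hd0 : d' = 0 := by simpa using hθ'
    have h1 : (γ : Matrix (Fin 2) (Fin 2) K).det = 0 :=
      (algebraMap K K').injective (by rw [map_zero]; exact hd0)
    have h2 : IsUnit (γ : Matrix (Fin 2) (Fin 2) K).det :=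
      (Matrix.isUnit_iff_isUnit_det _).mp γ.isUnit
    exact h2.ne_zero h1
  have hgfac : charP502 (γ' : Matrix (Fin 2) (Fin 2) K') = (X - C θ') * (X - C θ'') := by
    unfold charP502
    rw [htr', hdet', hθ'']
    have hd : d' = θ' * (t' - θ') := by linear_combination hθ'
    rw [hd]
    simp only [map_neg, map_sub, map_mul]
    ring
  refine exists_twNorm_eq502 (s : K' ≃+* K') 2 γ' hγs Ψ ((θ', θ'') : K' × K') T ?_ ?_ ?_ ?_
    ((θ', 1) : K' × K') ((θ'⁻¹, 1) : K' × K') ?_ ?_
  · intro r
    show T (r, r) = _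
    rw [hT]
    rfl
  · rw [hT, hsθ', hsθ'']
  · intro q hq
    have hq' : (eval θ' q, eval θ'' q) = ((0 : K'), (0 : K')) := by
      rw [← eval₂_diag502]; exact hq
    have h1 : eval θ' q = 0 := (Prod.ext_iff.mp hq').1
    have h2 : eval θ'' q = 0 := (Prod.ext_iff.mp hq').2
    obtain ⟨q₁, hq₁⟩ := dvd_iff_isRoot.mpr h1
    have h3 : eval θ'' q₁ = 0 := by
      rw [hq₁, eval_mul, eval_sub, eval_X, eval_C] at h2
      rcases mul_eq_zero.mp h2 with h | h
      · exact absurd (sub_eq_zero.mp h).symm hne12
      · exact h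
    obtain ⟨q₂, hq₂⟩ := dvd_iff_isRoot.mpr h3
    rw [hq₁, hq₂, ← mul_assoc, ← hgfac, map_mul, aeval_charP502, zero_mul]
  · rintro ⟨a, b⟩
    refine ⟨C a + C ((b - a) / (θ'' - θ')) * (X - C θ'), ?_⟩
    show eval₂ (RingHom.prod (RingHom.id K') (RingHom.id K')) ((θ', θ'') : K' × K') _ = _
    rw [eval₂_diag502]
    have hne' : θ'' - θ' ≠ 0 := sub_ne_zero.mpr (Ne.symm hne12)
    apply Prod.ext
    · simp
    · simp only [eval_add, eval_C, eval_mul, eval_sub, eval_X]
      field_simp
      ring
  · apply Prod.ext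
    · simp [mul_inv_cancel₀ hθ'0]
    · simp
  · rw [Finset.prod_range_succ, Finset.prod_range_one, Function.iterate_zero, id_eq,
      Function.iterate_one, hT]
    apply Prod.ext
    · simp
    · simp [hsθ']

end Split

end Fermat.Agent.LT.T6.H502

end
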