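import Mathlib
import Fermat.Agent.LT.T6.Spec
import Fermat.Agent.LT.T6.H502.Core
import Fermat.Agent.LT.T6.H502.LocStep
import Fermat.Agent.LT.T6.H502.LocMap
import Fermat.Agent.LT.T6.H502.Split
import Fermat.Agent.LT.T6.H502.Galois

/-!
# Row LT, tower T6, sub-leaf T6.07 (helper502): the field case and the split case

OFF-MAIN.  Mathlib only + `T6/Spec.lean`.

`K'/K` cyclic of prime degree `l` (number fields) with generator `s`, `γ ∈ GL₂(K)` elliptic,
`f` = characteristic polynomial of `γ` (irreducible over `K`), `L = K[X]/(f)`.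
* `split502`: `f` reducible over `K'`: then `l = 2` and `γ` is a norm (explicit formula).
* `f` irreducible over `K'`: `M = K'[X]/(f)` is cyclic of degree `l` over `L` with generator `τ`;
  - `loc_fin502`, `loc_inf502`: a local norm relation in `GL₂(K' ⊗ K_v)` gives, for every place
    `u | v` of `L`, an element of `L_u ⊗_L M` of norm `θ`;
  - `field_main502`: `θ = N_{M/L}(y)` gives `δ = y(γ) ∈ GL₂(K')` with twisted norm `γ`.
-/

set_option autoImplicit false
set_option linter.style.haveILetI false
set_option linter.unnecessarySimpa false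
set_option linter.unusedSectionVars false
set_option maxHeartbeats 1000000

open scoped Matrix TensorProduct
open Polynomial IsDedekindDomain NumberField

noncomputable section

namespace Fermat.Agent.LT.T6.H502

open Fermat.Agent.LT.T6

section Aux

variable {K K' : Type} [Field K] [Field K'] [Algebra K K']

theorem charP_map502 (γ : GL (Fin 2) K) :
    charP502 ((Matrix.GeneralLinearGroup.map (algebraMap K K') γ : GL (Fin 2) K') :
        Matrix (Fin 2) (Fin 2) K')
      = (charP502 (γ : Matrix (Fin 2) (Fin 2) K)).map (algebraMap K K') := by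
  unfold charP502
  simp [Matrix.trace_fin_two, Matrix.det_fin_two, Polynomial.map_add, Polynomial.map_mul,
    Polynomial.map_pow]

theorem eval_charP502 (γ : Matrix (Fin 2) (Fin 2) K) (x : K) :
    eval x (charP502 γ) = x ^ 2 - γ.trace * x + γ.det := by
  have := eval₂_charP502 γ (RingHom.id K) x
  simpa [eval₂_id] using this

theorem charP_natDegree502 (γ : Matrix (Fin 2) (Fin 2) K) : (charP502 γ).natDegree = 2 :=
  natDegree_eq_of_degree_eq_some (charP_degree502 γ)

theorem irreducible_charP502 (γ : GL (Fin 2) K) (hell : IsEll γ) :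
    Irreducible (charP502 (γ : Matrix (Fin 2) (Fin 2) K)) := by
  rw [(charP_monic502 _).irreducible_iff_roots_eq_zero_of_degree_le_three
    (by rw [charP_natDegree502]) (by rw [charP_natDegree502]; norm_num)]
  apply Multiset.eq_zero_of_forall_notMem
  intro x hx
  have h1 : IsRoot (charP502 (γ : Matrix (Fin 2) (Fin 2) K)) x := (mem_roots'.mp hx).2
  rw [IsRoot.def, eval_charP502] at h1
  exact hell.2 x h1

theorem det_ne_zero502 (γ : GL (Fin 2) K) : (γ : Matrix (Fin 2) (Fin 2) K).det ≠ 0 :=
  ((Matrix.isUnit_iff_isUnit_det _).mp γ.isUnit).ne_zero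

theorem glAut_map502 (s : K' ≃ₐ[K] K') (γ : GL (Fin 2) K) :
    glAut (s : K' ≃+* K') (Matrix.GeneralLinearGroup.map (algebraMap K K') γ)
      = Matrix.GeneralLinearGroup.map (algebraMap K K') γ := by
  apply Units.ext
  ext i j
  rw [coe_glAut502]
  simp [Matrix.GeneralLinearGroup.map_apply]

theorem isNormFrom_of_eq502 (s : K' ≃ₐ[K] K') (l : ℕ) (γ : GL (Fin 2) K)
    (h : ∃ δ : GL (Fin 2) K',
      twNorm (s : K' ≃+* K') l δ = Matrix.GeneralLinearGroup.map (algebraMap K K') γ) :
    IsNormFrom l (algebraMap K K') (s : K' ≃+* K') γ := by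
  obtain ⟨δ, hδ⟩ := h
  exact ⟨δ, by rw [hδ]⟩

/-- The split case: the characteristic polynomial of `γ` is reducible over `K'`. -/
theorem split502 [FiniteDimensional K K'] [IsGalois K K'] (s : K' ≃ₐ[K] K') (hs : ∀ t : K' ≃ₐ[K] K', t ∈ Subgroup.zpowers s)
    (l : ℕ) (hl : l.Prime) (hsl : s ^ l = 1) (γ : GL (Fin 2) K) (hell : IsEll γ)
    (hg : ¬ Irreducible ((charP502 (γ : Matrix (Fin 2) (Fin 2) K)).map (algebraMap K K'))) :
    ∃ δ : GL (Fin 2) K',
      twNorm (s : K' ≃+* K') l δ = Matrix.GeneralLinearGroup.map (algebraMap K K') γ := by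
  have hmonic : ((charP502 (γ : Matrix (Fin 2) (Fin 2) K)).map (algebraMap K K')).Monic :=
    (charP_monic502 _).map _
  have hdeg : ((charP502 (γ : Matrix (Fin 2) (Fin 2) K)).map (algebraMap K K')).natDegree
      = 2 := by
    rw [natDegree_map, charP_natDegree502]
  rw [hmonic.irreducible_iff_roots_eq_zero_of_degree_le_three (by rw [hdeg])
    (by rw [hdeg]; norm_num)] at hg
  obtain ⟨θ', hθ'⟩ := Multiset.exists_mem_of_ne_zero hg
  have h1 : IsRoot ((charP502 (γ : Matrix (Fin 2) (Fin 2) K)).map (algebraMap K K')) θ' :=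
    (mem_roots'.mp hθ').2
  rw [IsRoot.def, eval_map, eval₂_charP502] at h1
  exact split_case502 s hs l hl hsl γ hell θ' h1

/-- The group-theoretic facts on the generator `s`. -/
theorem gen_facts502 [FiniteDimensional K K'] [IsGalois K K'] (s : K' ≃ₐ[K] K')
    (hs : ∀ t : K' ≃ₐ[K] K', t ∈ Subgroup.zpowers s) :
    s ^ Module.finrank K K' = 1 ∧
      ∀ i j : ℕ, i < Module.finrank K K' → j < Module.finrank K K' → s ^ i = s ^ j → i = j := by
  have hcard : Nat.card (K' ≃ₐ[K] K') = Module.finrank K K' := IsGalois.card_aut_eq_finrank K K'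
  have hord : orderOf s = Module.finrank K K' := by
    rw [orderOf_eq_card_of_forall_mem_zpowers hs, hcard]
  refine ⟨by rw [← hord]; exact pow_orderOf_eq_one s, ?_⟩
  intro i j hi hj h
  exact pow_injOn_Iio_orderOf (by simpa [hord] using hi) (by simpa [hord] using hj) h

end Aux

section FieldCase

variable {K K' : Type} [Field K] [NumberField K] [Field K'] [NumberField K'] [Algebra K K']
  [IsGalois K K'] (f : K[X]) [hf : Fact (Irreducible f)]
  [hg : Fact (Irreducible (f.map (algebraMap K K')))]

attribute [local instance] algLM502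

theorem nf_L502 : NumberField (AdjoinRoot f) := by
  haveI : Module.Finite K (AdjoinRoot f) := finite_KL502 f
  exact NumberField.of_module_finite K _

theorem nf_M502 : NumberField (AdjoinRoot (f.map (algebraMap K K'))) := by
  haveI : Module.Finite K' (AdjoinRoot (f.map (algebraMap K K'))) := finite_K'M502 f
  exact NumberField.of_module_finite K' _

variable (s : K' ≃ₐ[K] K') (γ : GL (Fin 2) K) (l : ℕ)

theorem isCyclic_LM502 (hl : Module.finrank K K' = l) (hlp : l.Prime)
    (hinj : ∀ i j : ℕ, i < l → j < l → s ^ i = s ^ j → i = j) :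
    IsCyclic (AdjoinRoot (f.map (algebraMap K K')) ≃ₐ[AdjoinRoot f]
      AdjoinRoot (f.map (algebraMap K K'))) := by
  haveI : Fact l.Prime := ⟨hlp⟩
  exact isCyclic_of_prime_card (card_gal502 f s l hl hinj)

theorem root_eq502 (hfγ : f = charP502 (γ : Matrix (Fin 2) (Fin 2) K)) :
    AdjoinRoot.root f ^ 2
        - algebraMap K (AdjoinRoot f) (γ : Matrix (Fin 2) (Fin 2) K).trace * AdjoinRoot.root f
        + algebraMap K (AdjoinRoot f) (γ : Matrix (Fin 2) (Fin 2) K).det = 0 := by
  subst hfγ
  have h1 := AdjoinRoot.eval₂_root (charP502 (γ : Matrix (Fin 2) (Fin 2) K))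
  rw [eval₂_charP502] at h1
  exact h1

theorem root_ne_zero502 (hfγ : f = charP502 (γ : Matrix (Fin 2) (Fin 2) K)) :
    AdjoinRoot.root f ≠ 0 := by
  intro h0
  have hθ := root_eq502 f γ hfγ
  rw [h0] at hθ
  have h1 : algebraMap K (AdjoinRoot f) (γ : Matrix (Fin 2) (Fin 2) K).det = 0 := by
    simpa using hθ
  exact det_ne_zero502 γ ((algebraMap K (AdjoinRoot f)).injective (by rw [h1, map_zero]))

/-- The local norm relation at a finite place of `L`. -/
theorem loc_fin502 [NumberField (AdjoinRoot f)]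
    (hfγ : f = charP502 (γ : Matrix (Fin 2) (Fin 2) K))
    (hl : Module.finrank K K' = l) (hsl : s ^ l = 1)
    (hinj : ∀ i j : ℕ, i < l → j < l → s ^ i = s ^ j → i = j) (hreg : IsReg γ)
    (u : HeightOneSpectrum (𝓞 (AdjoinRoot f)))
    (h : IsLocNormFin s l (finUnder502 K u) γ) :
    ∃ y : TensorProduct (AdjoinRoot f) (u.adicCompletion (AdjoinRoot f))
        (AdjoinRoot (f.map (algebraMap K K'))),
      Algebra.norm (u.adicCompletion (AdjoinRoot f))
        (S := TensorProduct (AdjoinRoot f) (u.adicCompletion (AdjoinRoot f))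
          (AdjoinRoot (f.map (algebraMap K K')))) y
        = algebraMap (AdjoinRoot f) (u.adicCompletion (AdjoinRoot f)) (AdjoinRoot.root f) := by
  haveI : Module.Finite (AdjoinRoot f) (AdjoinRoot (f.map (algebraMap K K'))) := finite_LM502 f
  haveI : IsGalois (AdjoinRoot f) (AdjoinRoot (f.map (algebraMap K K'))) :=
    isGalois_LM502 f s l hl hinj
  obtain ⟨δ, hδ⟩ := h
  exact locstep502 s l hsl (tau502 f s) (fun x => tau_of502 f s x)
    (tau_pow_bijective502 f s l hl hinj) γ hreg (AdjoinRoot.root f) (root_eq502 f γ hfγ)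
    (finMap502 K u) (finMap_algebraMap502 K u) δ hδ

/-- The local norm relation at an infinite place of `L`. -/
theorem loc_inf502 [NumberField (AdjoinRoot f)]
    (hfγ : f = charP502 (γ : Matrix (Fin 2) (Fin 2) K))
    (hl : Module.finrank K K' = l) (hsl : s ^ l = 1)
    (hinj : ∀ i j : ℕ, i < l → j < l → s ^ i = s ^ j → i = j) (hreg : IsReg γ)
    (u : InfinitePlace (AdjoinRoot f))
    (h : IsLocNormInf s l (infUnder502 K u) γ) :
    ∃ y : TensorProduct (AdjoinRoot f) u.Completion (AdjoinRoot (f.map (algebraMap K K'))),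
      Algebra.norm u.Completion
        (S := TensorProduct (AdjoinRoot f) u.Completion
          (AdjoinRoot (f.map (algebraMap K K')))) y
        = algebraMap (AdjoinRoot f) u.Completion (AdjoinRoot.root f) := by
  haveI : Module.Finite (AdjoinRoot f) (AdjoinRoot (f.map (algebraMap K K'))) := finite_LM502 f
  haveI : IsGalois (AdjoinRoot f) (AdjoinRoot (f.map (algebraMap K K'))) :=
    isGalois_LM502 f s l hl hinj
  obtain ⟨δ, hδ⟩ := h
  exact locstep502 s l hsl (tau502 f s) (fun x => tau_of502 f s x)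
    (tau_pow_bijective502 f s l hl hinj) γ hreg (AdjoinRoot.root f) (root_eq502 f γ hfγ)
    (infMap502 K u) (infMap_algebraMap502 K u) δ hδ

/-- From a global norm relation `N_{M/L}(y) = θ` to `γ = N(δ)`. -/
theorem field_main502 (hfγ : f = charP502 (γ : Matrix (Fin 2) (Fin 2) K))
    (hl : Module.finrank K K' = l)
    (hinj : ∀ i j : ℕ, i < l → j < l → s ^ i = s ^ j → i = j)
    (y : AdjoinRoot (f.map (algebraMap K K')))
    (hy : Algebra.norm (AdjoinRoot f) y = AdjoinRoot.root f) :
    ∃ δ : GL (Fin 2) K',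
      twNorm (s : K' ≃+* K') l δ = Matrix.GeneralLinearGroup.map (algebraMap K K') γ := by
  classical
  haveI : Module.Finite (AdjoinRoot f) (AdjoinRoot (f.map (algebraMap K K'))) := finite_LM502 f
  haveI : IsGalois (AdjoinRoot f) (AdjoinRoot (f.map (algebraMap K K'))) :=
    isGalois_LM502 f s l hl hinj
  have hbij := tau_pow_bijective502 f s l hl hinj
  have hθ0 : AdjoinRoot.root f ≠ 0 := root_ne_zero502 f γ hfγ
  have hnorm := Algebra.norm_eq_prod_automorphisms (AdjoinRoot f) y
  rw [hy] at hnorm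
  have hΘ : algebraMap (AdjoinRoot f) (AdjoinRoot (f.map (algebraMap K K'))) (AdjoinRoot.root f)
      = AdjoinRoot.root (f.map (algebraMap K K')) := phi_root502 f
  have hiter : ∀ (i : ℕ) (z : AdjoinRoot (f.map (algebraMap K K'))),
      (tauRing502 f s)^[i] z = (tau502 f s ^ i) z := by
    intro i
    induction i with
    | zero => intro z; simp
    | succ i ih =>
      intro z
      rw [Function.iterate_succ_apply', ih, pow_succ', AlgEquiv.mul_apply, tau_apply502]
  have hprod : ∏ σ : (AdjoinRoot (f.map (algebraMap K K')) ≃ₐ[AdjoinRoot f]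
      AdjoinRoot (f.map (algebraMap K K'))), σ y
      = ∏ i ∈ Finset.range l, (tauRing502 f s)^[i] y := by
    rw [Finset.prod_range]
    exact (Fintype.prod_bijective _ hbij
      (fun i : Fin l => (tauRing502 f s)^[(i : ℕ)] y)
      (fun σ => σ y) (fun i => hiter i y)).symm
  rw [hprod, hΘ] at hnorm
  have hy0 : y ≠ 0 := by
    intro h0
    rw [h0, Algebra.norm_zero] at hy
    exact hθ0 hy.symm
  have hmk : ∀ q : K'[X],
      eval₂ (AdjoinRoot.of (f.map (algebraMap K K')))
        (AdjoinRoot.root (f.map (algebraMap K K'))) q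
        = AdjoinRoot.mk (f.map (algebraMap K K')) q := by
    intro q
    rw [← AdjoinRoot.aeval_eq, aeval_def, AdjoinRoot.algebraMap_eq]
  refine exists_twNorm_eq502 (s : K' ≃+* K') l
    (Matrix.GeneralLinearGroup.map (algebraMap K K') γ) (glAut_map502 s γ)
    (AdjoinRoot.of (f.map (algebraMap K K')))
    (AdjoinRoot.root (f.map (algebraMap K K')))
    (tauRing502 f s) ?_ ?_ ?_ ?_ y y⁻¹
    (mul_inv_cancel₀ hy0) hnorm.symm
  · intro r
    rw [tauRing_of502]
    rfl
  · exact tauRing_root502 f s
  · intro q hq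
    rw [hmk, AdjoinRoot.mk_eq_zero] at hq
    obtain ⟨r, hr⟩ := hq
    rw [hr, hfγ, ← charP_map502, map_mul, aeval_charP502, zero_mul]
  · intro b
    obtain ⟨p, hp⟩ := AdjoinRoot.mk_surjective b
    exact ⟨p, by rw [hmk, hp]⟩

end FieldCase

end Fermat.Agent.LT.T6.H502

end
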