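import Mathlib
import Fermat.Agent.LT.T6.Spec
import Fermat.Agent.LT.T6.H502.FieldCase

/-!
# Row LT, tower T6, sub-leaves T6.07a / T6.07b (helper502): the local-global principle for norms

OFF-MAIN.  Mathlib only + `T6/Spec.lean` v3 (sha256 `8c5f2ae7…`, helper22@83fb5972b).

* `normImageTC_of_hasse502 : T6.HasseNormTCC → T6.NormImageTCC`   (T6.07a, totally complex base)
* `normImageQ_of_hasse502  : T6.HasseNormQC → T6.NormImageQC`     (T6.07b, quadratic step over `ℚ`)
* `normImage_of_hasse502   : T6.HasseNormC → T6.NormImageC`       (the general statement)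

([L] §4): for `K'/K` cyclic of prime degree `l` (number fields), an elliptic regular `γ ∈ GL₂(K)`
which is a norm at every place is a norm.

Proof.  `f` = characteristic polynomial of `γ` (irreducible over `K`), `L = K[X]/(f)`.
* `f` has a root in `K'`: then `l = 2` and `γ` is a norm by an explicit formula (`Split.lean`).
* `f` irreducible over `K'`: `M = K'[X]/(f)` is a cyclic extension of `L` of degree `l` with
  generator `τ` = "`s` on the coefficients" (`Galois.lean`).  A local norm relation in
  `GL₂(K' ⊗ K_v)` gives, for every place `u | v` of `L`, an element of `L_u ⊗_L M` of norm `θ`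
  (`LocStep.lean`, with `NormProd.lean`: norm = product over the Galois group after base
  change).  Hasse: `θ = N_{M/L}(y)`.  Then `δ = y(γ) ∈ GL₂(K')` has twisted norm `γ` (`Core.lean`).
  In the totally complex case `L` is totally complex; in the quadratic case `[L : ℚ] = 2`,
  `[M : L] = 2` and `√-3 ∈ M` is not in `L` (it is moved by `τ`).
-/

set_option autoImplicit false
set_option linter.style.haveILetI false
set_option linter.unnecessarySimpa false
set_option linter.unusedSectionVars false
set_option maxHeartbeats 1000000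

open scoped Matrix TensorProduct
open Polynomial IsDedekindDomain NumberField

noncomputable section

namespace Fermat.Agent.LT.T6.H502

open Fermat.Agent.LT.T6

attribute [local instance] algLM502

/-- **The general statement.**  The local-global principle for norms in `GL₂` from the Hasse
norm theorem. -/
theorem normImage_of_hasse502 : HasseNormC → NormImageC := by
  intro hasse K K' _ _ _ _ _ _ s hs hl γ hell hfin hinf
  classical
  obtain ⟨hsl, hinj⟩ := gen_facts502 s hs
  apply isNormFrom_of_eq502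
  obtain ⟨f, hfγ⟩ : ∃ f : K[X], f = charP502 (γ : Matrix (Fin 2) (Fin 2) K) := ⟨_, rfl⟩
  by_cases hg : Irreducible (f.map (algebraMap K K'))
  · haveI : Fact (Irreducible f) := ⟨hfγ ▸ irreducible_charP502 γ hell⟩
    haveI : Fact (Irreducible (f.map (algebraMap K K'))) := ⟨hg⟩
    haveI : NumberField (AdjoinRoot f) := nf_L502 f
    haveI : NumberField (AdjoinRoot (f.map (algebraMap K K'))) := nf_M502 f
    haveI : IsGalois (AdjoinRoot f) (AdjoinRoot (f.map (algebraMap K K'))) :=
      isGalois_LM502 f s _ rfl hinj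
    obtain ⟨y, hy⟩ := hasse (AdjoinRoot f) (AdjoinRoot (f.map (algebraMap K K')))
      (isCyclic_LM502 f s _ rfl hl hinj) (by rw [finrank_LM502]; exact hl)
      (AdjoinRoot.root f) (root_ne_zero502 f γ hfγ)
      (fun u => loc_fin502 f s γ _ hfγ rfl hsl hinj hell.1 u (hfin _))
      (fun u => loc_inf502 f s γ _ hfγ rfl hsl hinj hell.1 u (hinf _))
    exact field_main502 f s γ _ hfγ rfl hinj y hy
  · exact split502 s hs _ hl hsl γ hell (hfγ ▸ hg)

/-- An extension of a totally complex field is totally complex. -/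
theorem isComplex_of_under502 {K L : Type} [Field K] [Field L] [Algebra K L]
    (h : ∀ w : InfinitePlace K, w.IsComplex) (u : InfinitePlace L) : u.IsComplex := by
  by_contra hu
  have hr : u.IsReal := InfinitePlace.not_isComplex_iff_isReal.mp hu
  exact InfinitePlace.not_isReal_iff_isComplex.mpr (h _) (hr.comap (algebraMap K L))

/-- **T6.07a.**  The totally complex case. -/
theorem normImageTC_of_hasse502 : HasseNormTCC → NormImageTCC := by
  intro hasse K K' _ _ _ _ _ _ s hs hl hTC γ hell hfin
  classical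
  obtain ⟨hsl, hinj⟩ := gen_facts502 s hs
  apply isNormFrom_of_eq502
  obtain ⟨f, hfγ⟩ : ∃ f : K[X], f = charP502 (γ : Matrix (Fin 2) (Fin 2) K) := ⟨_, rfl⟩
  by_cases hg : Irreducible (f.map (algebraMap K K'))
  · haveI : Fact (Irreducible f) := ⟨hfγ ▸ irreducible_charP502 γ hell⟩
    haveI : Fact (Irreducible (f.map (algebraMap K K'))) := ⟨hg⟩
    haveI : NumberField (AdjoinRoot f) := nf_L502 f
    haveI : NumberField (AdjoinRoot (f.map (algebraMap K K'))) := nf_M502 f
    haveI : IsGalois (AdjoinRoot f) (AdjoinRoot (f.map (algebraMap K K'))) :=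
      isGalois_LM502 f s _ rfl hinj
    obtain ⟨y, hy⟩ := hasse (AdjoinRoot f) (AdjoinRoot (f.map (algebraMap K K')))
      (isCyclic_LM502 f s _ rfl hl hinj) (by rw [finrank_LM502]; exact hl)
      (isComplex_of_under502 (K := K) hTC)
      (AdjoinRoot.root f) (root_ne_zero502 f γ hfγ)
      (fun u => loc_fin502 f s γ _ hfγ rfl hsl hinj hell.1 u (hfin _))
    exact field_main502 f s γ _ hfγ rfl hinj y hy
  · exact split502 s hs _ hl hsl γ hell (hfγ ▸ hg)

section Quad

variable {K K' : Type} [Field K] [NumberField K] [Field K'] [NumberField K'] [Algebra K K']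
  [IsGalois K K'] (f : K[X]) [hf : Fact (Irreducible f)]
  [hg : Fact (Irreducible (f.map (algebraMap K K')))]

/-- An element of `K'` outside `K` is not in `L` (inside `M`): it is moved by `τ`. -/
theorem notMem_L502 (s : K' ≃ₐ[K] K') (hs : ∀ t : K' ≃ₐ[K] K', t ∈ Subgroup.zpowers s)
    (z : K') (hz : ∀ a : K, algebraMap K K' a ≠ z) (x : AdjoinRoot f) :
    algebraMap (AdjoinRoot f) (AdjoinRoot (f.map (algebraMap K K'))) x
      ≠ AdjoinRoot.of (f.map (algebraMap K K')) z := by
  intro hx
  have h1 : tau502 f s (AdjoinRoot.of (f.map (algebraMap K K')) z)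
      = AdjoinRoot.of (f.map (algebraMap K K')) z := by
    rw [← hx]
    exact (tau502 f s).commutes x
  rw [tau_of502] at h1
  have h2 : s z = z := AdjoinRoot.coe_injective' (f := f.map (algebraMap K K')) h1
  have h3 : ∀ t : K' ≃ₐ[K] K', t z = z := by
    intro t
    obtain ⟨n, rfl⟩ := Subgroup.mem_zpowers_iff.mp (hs t)
    have h4 : ∀ m : ℕ, (s ^ m) z = z := by
      intro m
      induction m with
      | zero => simp
      | succ m ih => rw [pow_succ, AlgEquiv.mul_apply, h2, ih]
    rcases Int.eq_nat_or_neg n with ⟨m, rfl | rfl⟩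
    · rw [zpow_natCast]; exact h4 m
    · rw [zpow_neg, zpow_natCast]
      have h5 := h4 m
      calc (s ^ m)⁻¹ z = (s ^ m)⁻¹ ((s ^ m) z) := by rw [h5]
        _ = z := by
          rw [← AlgEquiv.mul_apply, inv_mul_cancel, AlgEquiv.one_apply]
  obtain ⟨a, ha⟩ := (IsGalois.mem_range_algebraMap_iff_fixed (F := K) (E := K') z).mpr h3
  exact hz a ha

end Quad

/-- `-3` is not a square in `ℚ`. -/
theorem neg_three_not_sq502 {K' : Type} [Field K'] [Algebra ℚ K'] (z : K') (hz : z ^ 2 = -3)
    (a : ℚ) : algebraMap ℚ K' a ≠ z := by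
  intro ha
  rw [← ha, ← map_pow] at hz
  have h1 : algebraMap ℚ K' (a ^ 2) = algebraMap ℚ K' (-3) := by
    rw [hz, map_neg, map_ofNat]
  have h2 : a ^ 2 = -3 := (algebraMap ℚ K').injective h1
  nlinarith [sq_nonneg a]

/-- The degree of `ℚ[X]/(f)` over `ℚ` (for any `ℚ`-module structure). -/
theorem finrank_QL502 (f : ℚ[X]) (hf0 : f ≠ 0) (hdeg : f.natDegree = 2)
    (inst : Module ℚ (AdjoinRoot f)) : @Module.finrank ℚ (AdjoinRoot f) _ _ inst = 2 := by
  have h : inst = Algebra.toModule := Subsingleton.elim _ _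
  subst h
  rw [(AdjoinRoot.powerBasis hf0).finrank, AdjoinRoot.powerBasis_dim, hdeg]

/-- **T6.07b.**  The quadratic step over `ℚ`. -/
theorem normImageQ_of_hasse502 : HasseNormQC → NormImageQC := by
  intro hasse K' _ _ _ s hs h2 hz γ hell hfin hinf
  classical
  obtain ⟨z, hz⟩ := hz
  obtain ⟨hsl, hinj⟩ := gen_facts502 s hs
  rw [h2] at hsl hinj
  have hl : (2 : ℕ).Prime := Nat.prime_two
  apply isNormFrom_of_eq502
  obtain ⟨f, hfγ⟩ : ∃ f : ℚ[X], f = charP502 (γ : Matrix (Fin 2) (Fin 2) ℚ) := ⟨_, rfl⟩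
  by_cases hg : Irreducible (f.map (algebraMap ℚ K'))
  · haveI : Fact (Irreducible f) := ⟨hfγ ▸ irreducible_charP502 γ hell⟩
    haveI : Fact (Irreducible (f.map (algebraMap ℚ K'))) := ⟨hg⟩
    haveI : NumberField (AdjoinRoot f) := nf_L502 f
    haveI : NumberField (AdjoinRoot (f.map (algebraMap ℚ K'))) := nf_M502 f
    haveI : IsGalois (AdjoinRoot f) (AdjoinRoot (f.map (algebraMap ℚ K'))) :=
      isGalois_LM502 f s 2 h2 hinj
    obtain ⟨y, hy⟩ := hasse (AdjoinRoot f) (AdjoinRoot (f.map (algebraMap ℚ K')))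
      (finrank_QL502 f (Fact.out : Irreducible f).ne_zero
        (by rw [hfγ]; exact charP_natDegree502 _) _)
      (by rw [finrank_LM502]; exact h2)
      ⟨AdjoinRoot.of (f.map (algebraMap ℚ K')) z, by
          rw [← map_pow, hz, map_neg, map_ofNat],
        notMem_L502 f s hs z (neg_three_not_sq502 z hz)⟩
      (AdjoinRoot.root f) (root_ne_zero502 f γ hfγ)
      (fun u => loc_fin502 f s γ 2 hfγ h2 hsl hinj hell.1 u (hfin _))
      (fun u => loc_inf502 f s γ 2 hfγ h2 hsl hinj hell.1 u (hinf _))
    exact field_main502 f s γ 2 hfγ h2 hinj y hy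
  · exact split502 s hs 2 hl hsl γ hell (hfγ ▸ hg)

end Fermat.Agent.LT.T6.H502

end
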